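import Mathlib

/-!
# S21, piece (P4), abstract part: a dimension count on `ℂ^X × ℂ^X`

`X` is a finite set with three self-maps `σ, υ, τ` (in the application: the actions of
`S`, `S * T`, `T` on `SL₂(ℤ) / Γ₀(N)`).  We bound the dimension of the space of pairs `(a, b)`
orthogonal to `(s - ℓ, u + ℓ)` for all `σ`-invariant `s`, `υ`-invariant `u`, `τ`-invariant `ℓ`.
-/

set_option autoImplicit false
set_option linter.unusedSectionVars false

namespace Fermat.Agent.S21.ParDim

open Module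

section LA

variable {X : Type} [Fintype X] [DecidableEq X]

/-- The functions invariant under `g`. -/
def invSub (g : X → X) : Submodule ℂ (X → ℂ) where
  carrier := {f | ∀ x, f (g x) = f x}
  zero_mem' := fun _ => rfl
  add_mem' := fun {a b} ha hb x => by
    simp only [Pi.add_apply, Set.mem_ofPred_eq] at *; rw [ha x, hb x]
  smul_mem' := fun c a ha x => by
    simp only [Pi.smul_apply, Set.mem_ofPred_eq] at *; rw [ha x]

theorem mem_invSub {g : X → X} {f : X → ℂ} : f ∈ invSub g ↔ ∀ x, f (g x) = f x := Iff.rfl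

theorem trace_funLeft (g : X → X) :
    LinearMap.trace ℂ (X → ℂ) (LinearMap.funLeft ℂ ℂ g) = (Fintype.card {x // g x = x} : ℂ) := by
  rw [LinearMap.trace_eq_matrix_trace ℂ (Pi.basisFun ℂ X), Matrix.trace]
  simp only [Matrix.diag_apply, LinearMap.toMatrix_apply, Pi.basisFun_apply, Pi.basisFun_repr,
    LinearMap.funLeft_apply]
  rw [Fintype.card_subtype, Finset.card_filter]
  push_cast
  refine Finset.sum_congr rfl fun x _ => ?_
  simp [Pi.single_apply]

/-- Dimension of the invariants of an involution. -/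
theorem two_mul_finrank_invSub (σ : X → X) (hσ : ∀ x, σ (σ x) = x) :
    2 * finrank ℂ (invSub σ) = Fintype.card X + Fintype.card {x // σ x = x} := by
  set P : (X → ℂ) →ₗ[ℂ] (X → ℂ) :=
    (2 : ℂ)⁻¹ • (LinearMap.id + LinearMap.funLeft ℂ ℂ σ) with hPdef
  have hP : LinearMap.IsProj (invSub σ) P := by
    refine ⟨fun f x => ?_, fun f hf => ?_⟩
    · simp only [hPdef, LinearMap.smul_apply, LinearMap.add_apply, LinearMap.id_coe, id_eq,
        Pi.smul_apply, Pi.add_apply, LinearMap.funLeft_apply, hσ, smul_eq_mul]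
      ring
    · ext x
      simp only [hPdef, LinearMap.smul_apply, LinearMap.add_apply, LinearMap.id_coe, id_eq,
        Pi.smul_apply, Pi.add_apply, LinearMap.funLeft_apply, smul_eq_mul, hf x]
      ring
  have htr := hP.trace
  rw [hPdef, map_smul, map_add, LinearMap.trace_id, trace_funLeft, Module.finrank_fintype_fun_eq_card,
    smul_eq_mul] at htr
  have h2 : ((2 * finrank ℂ (invSub σ) : ℕ) : ℂ)
      = ((Fintype.card X + Fintype.card {x // σ x = x} : ℕ) : ℂ) := by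
    push_cast
    rw [← htr]; ring
  exact_mod_cast h2

/-- Dimension of the invariants of a map of order three. -/
theorem three_mul_finrank_invSub (υ : X → X) (hυ : ∀ x, υ (υ (υ x)) = x) :
    3 * finrank ℂ (invSub υ) = Fintype.card X + 2 * Fintype.card {x // υ x = x} := by
  set P : (X → ℂ) →ₗ[ℂ] (X → ℂ) :=
    (3 : ℂ)⁻¹ • (LinearMap.id + LinearMap.funLeft ℂ ℂ υ + LinearMap.funLeft ℂ ℂ (υ ∘ υ))
    with hPdef
  have hP : LinearMap.IsProj (invSub υ) P := by
    refine ⟨fun f x => ?_, fun f hf => ?_⟩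
    · simp only [hPdef, LinearMap.smul_apply, LinearMap.add_apply, LinearMap.id_coe, id_eq,
        Pi.smul_apply, Pi.add_apply, LinearMap.funLeft_apply, hυ, smul_eq_mul,
        Function.comp_apply]
      ring
    · ext x
      simp only [hPdef, LinearMap.smul_apply, LinearMap.add_apply, LinearMap.id_coe, id_eq,
        Pi.smul_apply, Pi.add_apply, LinearMap.funLeft_apply, smul_eq_mul, hf _,
        Function.comp_apply]
      ring
  have hfix : Fintype.card {x // (υ ∘ υ) x = x} = Fintype.card {x // υ x = x} := by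
    refine Fintype.card_congr (Equiv.subtypeEquivRight fun x => ?_)
    constructor
    · intro h
      have h1 : υ (υ (υ x)) = υ x := congrArg υ h
      rw [hυ] at h1
      exact h1.symm
    · intro h
      simp only [Function.comp_apply, h]
  have htr := hP.trace
  rw [hPdef, map_smul, map_add, map_add, LinearMap.trace_id, trace_funLeft, trace_funLeft, hfix,
    Module.finrank_fintype_fun_eq_card, smul_eq_mul] at htr
  have h2 : ((3 * finrank ℂ (invSub υ) : ℕ) : ℂ)
      = ((Fintype.card X + 2 * Fintype.card {x // υ x = x} : ℕ) : ℂ) := by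
    push_cast
    rw [← htr]; ring
  exact_mod_cast h2

/-- The dot product pairing on `ℂ^X × ℂ^X`, as a map to the dual. -/
def dotD : ((X → ℂ) × (X → ℂ)) →ₗ[ℂ] Module.Dual ℂ ((X → ℂ) × (X → ℂ)) :=
  LinearMap.mk₂ ℂ (fun c w => ∑ x, (w.1 x * c.1 x + w.2 x * c.2 x))
    (fun c c' w => by
      simp only [Prod.fst_add, Prod.snd_add, Pi.add_apply, ← Finset.sum_add_distrib]
      exact Finset.sum_congr rfl fun x _ => by ring)
    (fun r c w => by
      simp only [Prod.smul_fst, Prod.smul_snd, Pi.smul_apply, smul_eq_mul, Finset.mul_sum]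
      exact Finset.sum_congr rfl fun x _ => by ring)
    (fun c w w' => by
      simp only [Prod.fst_add, Prod.snd_add, Pi.add_apply, ← Finset.sum_add_distrib]
      exact Finset.sum_congr rfl fun x _ => by ring)
    (fun r c w => by
      simp only [Prod.smul_fst, Prod.smul_snd, Pi.smul_apply, smul_eq_mul, Finset.mul_sum]
      exact Finset.sum_congr rfl fun x _ => by ring)

theorem dotD_apply (c w : (X → ℂ) × (X → ℂ)) :
    dotD c w = ∑ x, (w.1 x * c.1 x + w.2 x * c.2 x) := rfl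

/-- `(s, u, ℓ) ↦ (s - ℓ, u + ℓ)`. -/
def embC (σ υ τ : X → X) :
    (invSub σ × invSub υ × invSub τ) →ₗ[ℂ] ((X → ℂ) × (X → ℂ)) :=
  LinearMap.prod
    ((invSub σ).subtype ∘ₗ LinearMap.fst ℂ _ _
      - (invSub τ).subtype ∘ₗ LinearMap.snd ℂ _ _ ∘ₗ LinearMap.snd ℂ _ _)
    ((invSub υ).subtype ∘ₗ LinearMap.fst ℂ _ _ ∘ₗ LinearMap.snd ℂ _ _
      + (invSub τ).subtype ∘ₗ LinearMap.snd ℂ _ _ ∘ₗ LinearMap.snd ℂ _ _)

theorem embC_apply (σ υ τ : X → X) (c : invSub σ × invSub υ × invSub τ) :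
    embC σ υ τ c = ((c.1 : X → ℂ) - (c.2.2 : X → ℂ), (c.2.1 : X → ℂ) + (c.2.2 : X → ℂ)) := rfl

/-- The space of conditions. -/
def condJ (σ υ τ : X → X) :
    (invSub σ × invSub υ × invSub τ) →ₗ[ℂ] Module.Dual ℂ ((X → ℂ) × (X → ℂ)) :=
  dotD ∘ₗ embC σ υ τ

/-- The space `W'` of pairs `(a, b)` satisfying all conditions. -/
def Wsub (σ υ τ : X → X) : Submodule ℂ ((X → ℂ) × (X → ℂ)) :=
  (LinearMap.range (condJ σ υ τ)).dualCoannihilator

theorem mem_Wsub_iff (σ υ τ : X → X) (w : (X → ℂ) × (X → ℂ)) :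
    w ∈ Wsub σ υ τ ↔ ∀ (s u ℓ : X → ℂ), s ∈ invSub σ → u ∈ invSub υ → ℓ ∈ invSub τ →
      ∑ x, (w.1 x * (s x - ℓ x) + w.2 x * (u x + ℓ x)) = 0 := by
  rw [Wsub, Submodule.mem_dualCoannihilator]
  constructor
  · intro h s u ℓ hs hu hℓ
    have := h _ ⟨(⟨s, hs⟩, ⟨u, hu⟩, ⟨ℓ, hℓ⟩), rfl⟩
    simpa [condJ, dotD_apply, embC_apply] using this
  · rintro h _ ⟨c, rfl⟩
    have := h c.1 c.2.1 c.2.2 c.1.2 c.2.1.2 c.2.2.2
    simpa [condJ, dotD_apply, embC_apply] using this

theorem mem_Wsub_of (σ υ τ : X → X) (w : (X → ℂ) × (X → ℂ))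
    (h1 : ∀ s ∈ invSub σ, ∑ x, w.1 x * s x = 0)
    (h2 : ∀ u ∈ invSub υ, ∑ x, w.2 x * u x = 0)
    (h3 : ∀ ℓ ∈ invSub τ, ∑ x, (w.2 x - w.1 x) * ℓ x = 0) : w ∈ Wsub σ υ τ := by
  rw [mem_Wsub_iff]
  intro s u ℓ hs hu hℓ
  have e : ∀ x, w.1 x * (s x - ℓ x) + w.2 x * (u x + ℓ x)
      = w.1 x * s x + w.2 x * u x + (w.2 x - w.1 x) * ℓ x := fun x => by ring
  simp only [e, Finset.sum_add_distrib, h1 s hs, h2 u hu, h3 ℓ hℓ, add_zero]

theorem finrank_ker_condJ_le (σ υ τ : X → X)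
    (htrans : ∀ ℓ : X → ℂ, (∀ x, ℓ (σ x) = ℓ x) → (∀ x, ℓ (τ x) = ℓ x) → ∃ κ : ℂ, ∀ x, ℓ x = κ) :
    finrank ℂ (LinearMap.ker (condJ σ υ τ)) ≤ 1 := by
  let e : invSub σ × invSub υ × invSub τ :=
    (⟨fun _ => 1, fun _ => rfl⟩, ⟨fun _ => -1, fun _ => rfl⟩, ⟨fun _ => 1, fun _ => rfl⟩)
  have hle : LinearMap.ker (condJ σ υ τ) ≤ Submodule.span ℂ {e} := by
    intro c hc
    rw [LinearMap.mem_ker] at hc
    have h1 : ∀ x, (c.1 : X → ℂ) x - (c.2.2 : X → ℂ) x = 0 := by
      intro x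
      have := congrArg (fun φ : Module.Dual ℂ ((X → ℂ) × (X → ℂ)) => φ (Pi.single x 1, 0)) hc
      simpa [condJ, dotD_apply, embC_apply, Pi.single_apply] using this
    have h2 : ∀ x, (c.2.1 : X → ℂ) x + (c.2.2 : X → ℂ) x = 0 := by
      intro x
      have := congrArg (fun φ : Module.Dual ℂ ((X → ℂ) × (X → ℂ)) => φ (0, Pi.single x 1)) hc
      simpa [condJ, dotD_apply, embC_apply, Pi.single_apply] using this
    have hℓσ : ∀ x, (c.2.2 : X → ℂ) (σ x) = (c.2.2 : X → ℂ) x := by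
      intro x
      have a1 := h1 (σ x)
      have a2 := h1 x
      have a3 := c.1.2 x
      have e1 : (c.2.2 : X → ℂ) (σ x) = (c.1 : X → ℂ) (σ x) := (sub_eq_zero.mp a1).symm
      have e2 : (c.2.2 : X → ℂ) x = (c.1 : X → ℂ) x := (sub_eq_zero.mp a2).symm
      rw [e1, e2]; exact a3
    obtain ⟨κ, hκ⟩ := htrans (c.2.2 : X → ℂ) hℓσ c.2.2.2
    rw [Submodule.mem_span_singleton]
    refine ⟨κ, ?_⟩
    refine Prod.ext (Subtype.ext (funext fun x => ?_))
      (Prod.ext (Subtype.ext (funext fun x => ?_)) (Subtype.ext (funext fun x => ?_)))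
    · have := h1 x
      simp only [e, Prod.smul_fst, Submodule.coe_smul, Pi.smul_apply, smul_eq_mul, mul_one]
      rw [← hκ x]; exact (sub_eq_zero.mp this).symm
    · have := h2 x
      simp only [e, Prod.smul_snd, Prod.smul_fst, Submodule.coe_smul, Pi.smul_apply, smul_eq_mul,
        mul_neg, mul_one]
      rw [← hκ x]; exact (eq_neg_of_add_eq_zero_left this).symm
    · simp only [e, Prod.smul_snd, Submodule.coe_smul, Pi.smul_apply, smul_eq_mul, mul_one]
      exact (hκ x).symm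
  calc finrank ℂ (LinearMap.ker (condJ σ υ τ))
      ≤ finrank ℂ (Submodule.span ℂ {e}) := Submodule.finrank_mono hle
    _ ≤ 1 := by
      have := finrank_span_le_card (R := ℂ) ({e} : Set (invSub σ × invSub υ × invSub τ))
      simpa using this

/-- **The dimension count.** -/
theorem finrank_Wsub_add_le (σ υ τ : X → X)
    (htrans : ∀ ℓ : X → ℂ, (∀ x, ℓ (σ x) = ℓ x) → (∀ x, ℓ (τ x) = ℓ x) → ∃ κ : ℂ, ∀ x, ℓ x = κ) :
    finrank ℂ (Wsub σ υ τ) + finrank ℂ (invSub σ) + finrank ℂ (invSub υ) + finrank ℂ (invSub τ)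
      ≤ 2 * Fintype.card X + 1 := by
  have h1 := Subspace.finrank_add_finrank_dualCoannihilator_eq (LinearMap.range (condJ σ υ τ))
  have h2 := LinearMap.finrank_range_add_finrank_ker (condJ σ υ τ)
  have h3 := finrank_ker_condJ_le σ υ τ htrans
  rw [Module.finrank_prod, Module.finrank_prod] at h2
  rw [Module.finrank_prod, Module.finrank_fintype_fun_eq_card] at h1
  unfold Wsub
  omega

end LA

end Fermat.Agent.S21.ParDim
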