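import Mathlib
import Fermat.Prelude.Def_ModularCurve_PeriodMap
import Fermat.Prelude.Def_ModularCurve_GenusNumerics
import Fermat.Agent.S20.Cosets
import Fermat.Agent.S22.Periodic
import Fermat.Agent.S21.ParDimLA

/-!
# S21, piece (P4): `dim Hom_par(Γ₀(N), ℂ) ≤ 2 g`

Pure algebra: the Shapiro cocycle of a homomorphism `φ : Γ₀(N) → ℂ` with values in functions on
`Q N = SL₂(ℤ) / Γ₀(N)`, the relations `S² = (ST)³ = -1`, and the dimension count of
`ParDimLA`.
-/

set_option autoImplicit false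
set_option linter.unusedSectionVars false

namespace Fermat.Agent.S21.ParDim

open CongruenceSubgroup ModularCurve.Period Fermat.Agent.S20 Module
open scoped MatrixGroups

variable {N : ℕ}

/-- The element `(g x).out⁻¹ * g * x.out` of `Γ₀(N)`. -/
noncomputable def cocEl (g : SL(2, ℤ)) (x : Q N) : Gamma0 N :=
  ⟨((g • x).out)⁻¹ * (g * x.out), by
    rw [← QuotientGroup.eq, QuotientGroup.out_eq']
    conv_lhs => rw [← QuotientGroup.out_eq' x]
    rfl⟩

theorem coe_cocEl (g : SL(2, ℤ)) (x : Q N) :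
    ((cocEl g x : Gamma0 N) : SL(2, ℤ)) = ((g • x).out)⁻¹ * (g * x.out) := rfl

theorem cocEl_mul (g h : SL(2, ℤ)) (x : Q N) :
    cocEl (g * h) x = cocEl g (h • x) * cocEl h x := by
  apply Subtype.ext
  simp only [coe_cocEl, Subgroup.coe_mul, mul_smul]
  group

/-- The cocycle property. -/
def IsCoc (c : SL(2, ℤ) → Q N → ℂ) : Prop :=
  ∀ g h x, c (g * h) x = c g (h • x) + c h x

/-- The Shapiro cocycle of a homomorphism. -/
noncomputable def coc (φ : Additive (Gamma0 N) →+ ℂ) (g : SL(2, ℤ)) (x : Q N) : ℂ :=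
  φ (Additive.ofMul (cocEl g x))

theorem isCoc_coc (φ : Additive (Gamma0 N) →+ ℂ) : IsCoc (coc φ) := by
  intro g h x
  simp only [coc, cocEl_mul, ofMul_mul, map_add]

/-- The coboundary of a function. -/
def cob (v : Q N → ℂ) (g : SL(2, ℤ)) (x : Q N) : ℂ := v (g • x) - v x

theorem isCoc_cob (v : Q N → ℂ) : IsCoc (cob v) := by
  intro g h x
  simp only [cob, mul_smul]
  ring

theorem IsCoc.add {c c' : SL(2, ℤ) → Q N → ℂ} (hc : IsCoc c) (hc' : IsCoc c') :
    IsCoc (fun g x => c g x + c' g x) := by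
  intro g h x
  simp only [hc g h x, hc' g h x]
  ring

theorem IsCoc.one {c : SL(2, ℤ) → Q N → ℂ} (hc : IsCoc c) (x : Q N) : c 1 x = 0 := by
  have := hc 1 1 x
  rw [mul_one, one_smul] at this
  exact left_eq_add.mp this

theorem IsCoc.inv {c : SL(2, ℤ) → Q N → ℂ} (hc : IsCoc c) (g : SL(2, ℤ)) (x : Q N) :
    c g⁻¹ x = - c g (g⁻¹ • x) := by
  have := hc g g⁻¹ x
  rw [mul_inv_cancel, hc.one] at this
  exact (neg_eq_of_add_eq_zero_right this.symm).symm

theorem IsCoc.neg_one [NeZero N] {c : SL(2, ℤ) → Q N → ℂ} (hc : IsCoc c) (x : Q N) :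
    c (-1) x = 0 := by
  have := hc (-1) (-1) x
  rw [neg_mul_neg, mul_one, hc.one, Cosets.neg_one_smul] at this
  have h2 : (2 : ℂ) * c (-1) x = 0 := by rw [two_mul]; exact this.symm
  exact (mul_eq_zero.mp h2).resolve_left two_ne_zero

theorem IsCoc.eq_zero_of_S_ST {c : SL(2, ℤ) → Q N → ℂ} (hc : IsCoc c)
    (hS : ∀ x, c ModularGroup.S x = 0) (hU : ∀ x, c (ModularGroup.S * ModularGroup.T) x = 0) :
    ∀ g x, c g x = 0 := by
  have hT : ∀ x, c ModularGroup.T x = 0 := by
    intro x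
    have := hc ModularGroup.S ModularGroup.T x
    rw [hU, hS, zero_add] at this
    exact this.symm
  intro g
  have hg : g ∈ Subgroup.closure ({ModularGroup.S, ModularGroup.T} : Set SL(2, ℤ)) := by
    rw [_root_.SpecialLinearGroup.SL2Z_generators]; trivial
  induction hg using Subgroup.closure_induction with
  | mem y hy =>
    rcases hy with rfl | rfl
    · exact hS
    · exact hT
  | one => exact hc.one
  | mul y z _ _ hy hz =>
    intro x
    rw [hc y z x, hy, hz, add_zero]
  | inv y _ hy =>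
    intro x
    rw [hc.inv, hy, neg_zero]

/-- The base coset. -/
def x0 (N : ℕ) : Q N := ((1 : SL(2, ℤ)) : Q N)

theorem x0_out_mem (N : ℕ) : ((x0 N).out : SL(2, ℤ)) ∈ Gamma0 N := by
  have h : (((x0 N).out : SL(2, ℤ)) : Q N) = ((1 : SL(2, ℤ)) : Q N) := QuotientGroup.out_eq' _
  rw [QuotientGroup.eq] at h
  have h2 := (Gamma0 N).inv_mem h
  simpa using h2

theorem smul_x0_of_mem {γ : SL(2, ℤ)} (hγ : γ ∈ Gamma0 N) : γ • x0 N = x0 N := by
  show γ • (((1 : SL(2, ℤ)) : Q N)) = ((1 : SL(2, ℤ)) : Q N)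
  rw [Cosets.smul_mk, mul_one, QuotientGroup.eq]
  simpa using (Gamma0 N).inv_mem hγ

theorem exists_smul_x0 (x : Q N) : ∃ g : SL(2, ℤ), g • x0 N = x := by
  refine ⟨x.out, ?_⟩
  show (x.out : SL(2, ℤ)) • (((1 : SL(2, ℤ)) : Q N)) = x
  rw [Cosets.smul_mk, mul_one]
  exact QuotientGroup.out_eq' x

/-- The homomorphism is recovered from its Shapiro cocycle. -/
theorem coc_x0 (φ : Additive (Gamma0 N) →+ ℂ) (γ : Gamma0 N) :
    coc φ (γ : SL(2, ℤ)) (x0 N) = φ (Additive.ofMul γ) := by
  set r : Gamma0 N := ⟨(x0 N).out, x0_out_mem N⟩ with hr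
  have h : cocEl (γ : SL(2, ℤ)) (x0 N) = r⁻¹ * γ * r := by
    apply Subtype.ext
    rw [coe_cocEl, smul_x0_of_mem γ.2]
    simp only [hr, Subgroup.coe_mul, Subgroup.coe_inv, mul_assoc]
  rw [coc, h]
  simp only [ofMul_mul, ofMul_inv, map_add, map_neg]
  ring

theorem coc_pow_eq_sum {c : SL(2, ℤ) → Q N → ℂ} (hc : IsCoc c) (g : SL(2, ℤ)) (M : ℕ)
    (x : Q N) : c (g ^ M) x = ∑ i ∈ Finset.range M, c g (g ^ i • x) := by
  induction M generalizing x with
  | zero => simp [hc.one]
  | succ M ih =>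
    rw [pow_succ, hc, ih, Finset.sum_range_succ', pow_zero, one_smul]
    congr 1
    refine Finset.sum_congr rfl fun i _ => ?_
    rw [pow_succ, mul_smul]

theorem T_pow_smul (N : ℕ) (x : Q N) : (ModularGroup.T ^ N) • x = x := by
  obtain ⟨h, rfl⟩ := QuotientGroup.mk_surjective x
  rw [Cosets.smul_mk, QuotientGroup.eq]
  have := Fermat.Agent.S22.conj_T_zpow_mem_gamma0 N h⁻¹
  rw [inv_inv, zpow_natCast] at this
  have h2 := (Gamma0 N).inv_mem this
  simpa [mul_assoc] using h2

/-- The Shapiro cocycle of a parabolic homomorphism vanishes at `T ^ N`. -/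
theorem coc_T_pow_of_parabolic {φ : Additive (Gamma0 N) →+ ℂ}
    (hφ : φ ∈ parabolicHoms ℂ (Gamma0 N) ℂ) (x : Q N) : coc φ (ModularGroup.T ^ N) x = 0 := by
  rw [mem_parabolicHoms_iff] at hφ
  refine hφ _ ?_
  rw [coe_cocEl, T_pow_smul]
  have htr : ((((x.out : SL(2, ℤ)))⁻¹ * (ModularGroup.T ^ N * (x.out : SL(2, ℤ))) : SL(2, ℤ)) :
      Matrix (Fin 2) (Fin 2) ℤ).trace = 2 := by
    rw [Matrix.SpecialLinearGroup.coe_mul, Matrix.trace_mul_comm,
      ← Matrix.SpecialLinearGroup.coe_mul, mul_assoc, mul_inv_cancel, mul_one]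
    have := ModularGroup.coe_T_zpow (N : ℤ)
    rw [zpow_natCast] at this
    rw [this]
    simp [Matrix.trace_fin_two]
  rw [htr]; norm_num

section Fin

variable [NeZero N]

/-- A `Fintype` structure on the coset space. -/
@[reducible] noncomputable def fintypeQ' : Fintype (Q N) := Fintype.ofFinite _

attribute [local instance] fintypeQ'

open scoped Classical in
theorem sum_smul_eq (g : SL(2, ℤ)) (f : Q N → ℂ) : ∑ x, f (g • x) = ∑ x, f x :=
  Equiv.sum_comp (MulAction.toPerm g) f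

theorem sum_mul_coc_T_of_parabolic {φ : Additive (Gamma0 N) →+ ℂ}
    (hφ : φ ∈ parabolicHoms ℂ (Gamma0 N) ℂ) (ℓ : Q N → ℂ)
    (hℓ : ∀ x, ℓ (ModularGroup.T • x) = ℓ x) :
    ∑ x, coc φ ModularGroup.T x * ℓ x = 0 := by
  have hℓ' : ∀ (i : ℕ) (x : Q N), ℓ (ModularGroup.T ^ i • x) = ℓ x := by
    intro i
    induction i with
    | zero => intro x; rw [pow_zero, one_smul]
    | succ i ih => intro x; rw [pow_succ, mul_smul, ih, hℓ]
  have h1 : ∀ i : ℕ, ∑ x, coc φ ModularGroup.T (ModularGroup.T ^ i • x) * ℓ x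
      = ∑ x, coc φ ModularGroup.T x * ℓ x := by
    intro i
    rw [← sum_smul_eq (ModularGroup.T ^ i) (fun x => coc φ ModularGroup.T x * ℓ x)]
    refine Finset.sum_congr rfl fun x _ => ?_
    rw [hℓ']
  have h2 : ∑ i ∈ Finset.range N, ∑ x, coc φ ModularGroup.T (ModularGroup.T ^ i • x) * ℓ x = 0 := by
    rw [Finset.sum_comm]
    refine Finset.sum_eq_zero fun x _ => ?_
    rw [← Finset.sum_mul, ← coc_pow_eq_sum (isCoc_coc φ), coc_T_pow_of_parabolic hφ, zero_mul]
  simp only [h1, Finset.sum_const, Finset.card_range, nsmul_eq_mul] at h2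
  exact (mul_eq_zero.mp h2).resolve_left (Nat.cast_ne_zero.mpr (NeZero.ne N))

theorem sum_mul_cob_T (v ℓ : Q N → ℂ) (hℓ : ∀ x, ℓ (ModularGroup.T • x) = ℓ x) :
    ∑ x, cob v ModularGroup.T x * ℓ x = 0 := by
  have h1 : ∑ x, v (ModularGroup.T • x) * ℓ x = ∑ x, v x * ℓ x := by
    rw [← sum_smul_eq ModularGroup.T (fun x => v x * ℓ x)]
    refine Finset.sum_congr rfl fun x _ => ?_
    rw [hℓ]
  simp only [cob, sub_mul, Finset.sum_sub_distrib, h1, sub_self]

/-- `φ ↦ c_φ(g)` as a linear map. -/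
noncomputable def cocL (g : SL(2, ℤ)) : (Additive (Gamma0 N) →+ ℂ) →ₗ[ℂ] (Q N → ℂ) where
  toFun φ := coc φ g
  map_add' φ ψ := by ext x; simp [coc]
  map_smul' r φ := by ext x; simp [coc]

/-- `v ↦ (x ↦ v (g x) - v x)` as a linear map. -/
noncomputable def cobL (g : SL(2, ℤ)) : (Q N → ℂ) →ₗ[ℂ] (Q N → ℂ) where
  toFun v := cob v g
  map_add' v w := by ext x; simp [cob]; ring
  map_smul' r v := by ext x; simp [cob]; ring

/-- The map `(φ, v) ↦ (c(S), c(ST))` for the cocycle `c = c_φ + ∂v`. -/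
noncomputable def PsiL (N : ℕ) [NeZero N] :
    (parabolicHoms ℂ (Gamma0 N) ℂ × (Q N → ℂ)) →ₗ[ℂ] ((Q N → ℂ) × (Q N → ℂ)) :=
  LinearMap.prod
    (cocL ModularGroup.S ∘ₗ (parabolicHoms ℂ (Gamma0 N) ℂ).subtype ∘ₗ LinearMap.fst ℂ _ _
      + cobL ModularGroup.S ∘ₗ LinearMap.snd ℂ _ _)
    (cocL (ModularGroup.S * ModularGroup.T) ∘ₗ (parabolicHoms ℂ (Gamma0 N) ℂ).subtype
        ∘ₗ LinearMap.fst ℂ _ _
      + cobL (ModularGroup.S * ModularGroup.T) ∘ₗ LinearMap.snd ℂ _ _)

/-- The total cocycle attached to a pair. -/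
noncomputable def totC (p : parabolicHoms ℂ (Gamma0 N) ℂ × (Q N → ℂ)) :
    SL(2, ℤ) → Q N → ℂ :=
  fun g x => coc (p.1 : Additive (Gamma0 N) →+ ℂ) g x + cob p.2 g x

theorem isCoc_totC (p : parabolicHoms ℂ (Gamma0 N) ℂ × (Q N → ℂ)) : IsCoc (totC p) :=
  (isCoc_coc _).add (isCoc_cob _)

theorem PsiL_apply (p : parabolicHoms ℂ (Gamma0 N) ℂ × (Q N → ℂ)) :
    PsiL N p = (totC p ModularGroup.S, totC p (ModularGroup.S * ModularGroup.T)) := rfl

theorem totC_eq_zero_of_mem_ker {p : parabolicHoms ℂ (Gamma0 N) ℂ × (Q N → ℂ)}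
    (hp : PsiL N p = 0) : ∀ g x, totC p g x = 0 := by
  rw [PsiL_apply, Prod.mk_eq_zero] at hp
  exact (isCoc_totC p).eq_zero_of_S_ST (fun x => congrFun hp.1 x) (fun x => congrFun hp.2 x)

theorem fst_eq_zero_of_mem_ker {p : parabolicHoms ℂ (Gamma0 N) ℂ × (Q N → ℂ)}
    (hp : PsiL N p = 0) : p.1 = 0 := by
  have h := totC_eq_zero_of_mem_ker hp
  apply Subtype.ext
  refine AddMonoidHom.ext fun γ => ?_
  have h1 := h ((Additive.toMul γ : Gamma0 N) : SL(2, ℤ)) (x0 N)
  rw [totC, coc_x0, cob, smul_x0_of_mem (Additive.toMul γ).2, sub_self, add_zero] at h1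
  exact h1

theorem snd_eq_const_of_mem_ker {p : parabolicHoms ℂ (Gamma0 N) ℂ × (Q N → ℂ)}
    (hp : PsiL N p = 0) (x : Q N) : p.2 x = p.2 (x0 N) := by
  have h := totC_eq_zero_of_mem_ker hp
  have h0 := fst_eq_zero_of_mem_ker hp
  obtain ⟨g, rfl⟩ := exists_smul_x0 x
  have h1 := h g (x0 N)
  rw [totC, h0] at h1
  simp only [coc, Submodule.coe_zero, AddMonoidHom.zero_apply, zero_add, cob] at h1
  exact sub_eq_zero.mp h1

theorem finrank_ker_PsiL_le : finrank ℂ (LinearMap.ker (PsiL N)) ≤ 1 := by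
  let e : parabolicHoms ℂ (Gamma0 N) ℂ × (Q N → ℂ) := (0, fun _ => 1)
  have hle : LinearMap.ker (PsiL N) ≤ Submodule.span ℂ {e} := by
    intro p hp
    rw [LinearMap.mem_ker] at hp
    rw [Submodule.mem_span_singleton]
    refine ⟨p.2 (x0 N), ?_⟩
    refine Prod.ext ?_ (funext fun x => ?_)
    · simp only [e, Prod.smul_fst, smul_zero]
      exact (fst_eq_zero_of_mem_ker hp).symm
    · simp only [e, Prod.smul_snd, Pi.smul_apply, smul_eq_mul, mul_one]
      exact (snd_eq_const_of_mem_ker hp x).symm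
  calc finrank ℂ (LinearMap.ker (PsiL N))
      ≤ finrank ℂ (Submodule.span ℂ {e}) := Submodule.finrank_mono hle
    _ ≤ 1 := by
      have := finrank_span_le_card (R := ℂ)
        ({e} : Set (parabolicHoms ℂ (Gamma0 N) ℂ × (Q N → ℂ)))
      simpa using this

/-- **Finite-dimensionality of the space of parabolic homomorphisms.** -/
theorem finiteDimensional_parabolicHoms (N : ℕ) [NeZero N] :
    FiniteDimensional ℂ (parabolicHoms ℂ (Gamma0 N) ℂ) := by
  have hinj : Function.Injective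
      (PsiL N ∘ₗ LinearMap.inl ℂ (parabolicHoms ℂ (Gamma0 N) ℂ) (Q N → ℂ)) := by
    rw [← LinearMap.ker_eq_bot, LinearMap.ker_eq_bot']
    intro φ hφ
    have := fst_eq_zero_of_mem_ker (p := (φ, 0)) hφ
    exact this
  exact Module.Finite.of_injective _ hinj

/-- The three self-maps of the coset space. -/
def actS (N : ℕ) : Q N → Q N := fun x => ModularGroup.S • x
/-- The action of `S * T`. -/
def actU (N : ℕ) : Q N → Q N := fun x => (ModularGroup.S * ModularGroup.T) • x
/-- The action of `T`. -/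
def actT (N : ℕ) : Q N → Q N := fun x => ModularGroup.T • x

open scoped Classical in
theorem PsiL_mem_Wsub (p : parabolicHoms ℂ (Gamma0 N) ℂ × (Q N → ℂ)) :
    PsiL N p ∈ Wsub (actS N) (actU N) (actT N) := by
  have hc := isCoc_totC p
  set a := totC p ModularGroup.S with ha
  set b := totC p (ModularGroup.S * ModularGroup.T) with hb
  have haS : ∀ x, a (ModularGroup.S • x) = - a x := by
    intro x
    have := hc ModularGroup.S ModularGroup.S x
    rw [Cosets.S_mul_S, hc.neg_one] at this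
    exact (neg_eq_of_add_eq_zero_left this.symm).symm
  have hbU : ∀ x, b ((ModularGroup.S * ModularGroup.T) • (ModularGroup.S * ModularGroup.T) • x)
      + b ((ModularGroup.S * ModularGroup.T) • x) + b x = 0 := by
    intro x
    have h1 := hc ((ModularGroup.S * ModularGroup.T) * (ModularGroup.S * ModularGroup.T))
      (ModularGroup.S * ModularGroup.T) x
    have h2 := hc (ModularGroup.S * ModularGroup.T) (ModularGroup.S * ModularGroup.T)
      ((ModularGroup.S * ModularGroup.T) • x)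
    rw [Cosets.ST_pow_three, hc.neg_one, h2] at h1
    rw [← h1.symm]
  have hT : ∀ x, totC p ModularGroup.T x = b x - a (ModularGroup.T • x) := by
    intro x
    have := hc ModularGroup.S ModularGroup.T x
    rw [hb, this]; ring
  rw [PsiL_apply]
  refine mem_Wsub_of _ _ _ _ ?_ ?_ ?_
  · intro s hs
    rw [mem_invSub] at hs
    have h1 : ∑ x, a (ModularGroup.S • x) * s (ModularGroup.S • x) = ∑ x, a x * s x :=
      sum_smul_eq ModularGroup.S (fun x => a x * s x)
    have h2 : ∑ x, a (ModularGroup.S • x) * s (ModularGroup.S • x) = - ∑ x, a x * s x := by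
      rw [← Finset.sum_neg_distrib]
      refine Finset.sum_congr rfl fun x _ => ?_
      have := hs x
      simp only [actS] at this
      rw [haS, this]; ring
    have h3 : (2 : ℂ) * ∑ x, a x * s x = 0 := by
      rw [two_mul]; nth_rewrite 1 [← h1]; rw [h2]; ring
    exact (mul_eq_zero.mp h3).resolve_left two_ne_zero
  · intro u hu
    rw [mem_invSub] at hu
    have hu1 : ∀ x, u ((ModularGroup.S * ModularGroup.T) • x) = u x := hu
    have h1 : ∑ x, b ((ModularGroup.S * ModularGroup.T) • x)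
        * u ((ModularGroup.S * ModularGroup.T) • x) = ∑ x, b x * u x :=
      sum_smul_eq (ModularGroup.S * ModularGroup.T) (fun x => b x * u x)
    have h2 : ∑ x, b ((ModularGroup.S * ModularGroup.T) • (ModularGroup.S * ModularGroup.T) • x)
        * u ((ModularGroup.S * ModularGroup.T) • (ModularGroup.S * ModularGroup.T) • x)
        = ∑ x, b x * u x := by
      rw [sum_smul_eq (ModularGroup.S * ModularGroup.T)
        (fun x => b ((ModularGroup.S * ModularGroup.T) • x)
          * u ((ModularGroup.S * ModularGroup.T) • x)), h1]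
    have h3 : (3 : ℂ) * ∑ x, b x * u x = 0 := by
      have : (3 : ℂ) * ∑ x, b x * u x
          = ∑ x, (b ((ModularGroup.S * ModularGroup.T) • (ModularGroup.S * ModularGroup.T) • x)
              + b ((ModularGroup.S * ModularGroup.T) • x) + b x) * u x := by
        simp only [add_mul, Finset.sum_add_distrib]
        have e2 : ∑ x, b ((ModularGroup.S * ModularGroup.T)
              • (ModularGroup.S * ModularGroup.T) • x) * u x = ∑ x, b x * u x := by
          rw [← h2]
          refine Finset.sum_congr rfl fun x _ => ?_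
          rw [hu1, hu1]
        have e1 : ∑ x, b ((ModularGroup.S * ModularGroup.T) • x) * u x = ∑ x, b x * u x := by
          rw [← h1]
          refine Finset.sum_congr rfl fun x _ => ?_
          rw [hu1]
        rw [e1, e2]; ring
      rw [this]
      refine Finset.sum_eq_zero fun x _ => ?_
      rw [hbU, zero_mul]
    exact (mul_eq_zero.mp h3).resolve_left (by norm_num)
  · intro ℓ hℓ
    rw [mem_invSub] at hℓ
    have hℓ1 : ∀ x, ℓ (ModularGroup.T • x) = ℓ x := hℓ
    have h1 : ∑ x, a (ModularGroup.T • x) * ℓ x = ∑ x, a x * ℓ x := by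
      rw [← sum_smul_eq ModularGroup.T (fun x => a x * ℓ x)]
      refine Finset.sum_congr rfl fun x _ => ?_
      rw [hℓ1]
    have h2 : ∑ x, (b x - a x) * ℓ x = ∑ x, totC p ModularGroup.T x * ℓ x := by
      simp only [hT, sub_mul, Finset.sum_sub_distrib, h1]
    show ∑ x, (b x - a x) * ℓ x = 0
    rw [h2]
    simp only [totC, add_mul, Finset.sum_add_distrib]
    rw [sum_mul_coc_T_of_parabolic p.1.2 ℓ hℓ1, sum_mul_cob_T p.2 ℓ hℓ1, add_zero]

theorem range_PsiL_le :
    LinearMap.range (PsiL N) ≤ Wsub (actS N) (actU N) (actT N) := by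
  rintro _ ⟨p, rfl⟩
  exact PsiL_mem_Wsub p

theorem const_of_invariant (ℓ : Q N → ℂ) (hS : ∀ x, ℓ (actS N x) = ℓ x)
    (hT : ∀ x, ℓ (actT N x) = ℓ x) : ∃ κ : ℂ, ∀ x, ℓ x = κ := by
  have h := (isCoc_cob ℓ).eq_zero_of_S_ST
    (fun x => by simp only [cob]; exact sub_eq_zero.mpr (hS x))
    (fun x => by
      simp only [cob, mul_smul]
      have h1 := hS (ModularGroup.T • x)
      have h2 := hT x
      simp only [actS, actT] at h1 h2
      rw [h1, h2, sub_self])
  refine ⟨ℓ (x0 N), fun x => ?_⟩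
  obtain ⟨g, rfl⟩ := exists_smul_x0 x
  exact sub_eq_zero.mp (h g (x0 N))

open scoped Classical in
theorem cuspCount_le_finrank_invSub :
    ModularCurve.cuspCount N ≤ finrank ℂ (invSub (actT N)) := by
  have : Fintype (MulAction.orbitRel.Quotient (Subgroup.zpowers ModularGroup.T) (Q N)) :=
    Fintype.ofFinite _
  let π : Q N → MulAction.orbitRel.Quotient (Subgroup.zpowers ModularGroup.T) (Q N) :=
    Quotient.mk''
  have hπ : Function.Surjective π := Quotient.mk''_surjective
  have hπT : ∀ x, π (ModularGroup.T • x) = π x := by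
    intro x
    refine Quotient.sound' ?_
    rw [MulAction.orbitRel_apply]
    exact ⟨⟨ModularGroup.T, Subgroup.mem_zpowers _⟩, rfl⟩
  let L : (MulAction.orbitRel.Quotient (Subgroup.zpowers ModularGroup.T) (Q N) → ℂ)
      →ₗ[ℂ] invSub (actT N) :=
    LinearMap.codRestrict (invSub (actT N)) (LinearMap.funLeft ℂ ℂ π) (fun F x => by
      simp only [LinearMap.funLeft_apply, actT, hπT])
  have hL : Function.Injective L := by
    intro F G hFG
    have := congrArg (fun f : invSub (actT N) => (f : Q N → ℂ)) hFG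
    exact LinearMap.funLeft_injective_of_surjective ℂ ℂ π hπ this
  have := LinearMap.finrank_le_finrank_of_injective hL
  rwa [Module.finrank_fintype_fun_eq_card, ← Nat.card_eq_fintype_card,
    Cosets.card_orbits_T] at this

open scoped Classical in
/-- **The dimension bound**: `dim Hom_par(Γ₀(N), ℂ) ≤ 2 g`. -/
theorem finrank_parabolicHoms_le (N : ℕ) [NeZero N] :
    (finrank ℂ (parabolicHoms ℂ (Gamma0 N) ℂ) : ℚ) ≤ 2 * ModularCurve.genusFormula N := by
  have := finiteDimensional_parabolicHoms N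
  have h1 := LinearMap.finrank_range_add_finrank_ker (PsiL N)
  rw [Module.finrank_prod, Module.finrank_fintype_fun_eq_card] at h1
  have h2 : finrank ℂ (LinearMap.range (PsiL N)) ≤ finrank ℂ (Wsub (actS N) (actU N) (actT N)) :=
    Submodule.finrank_mono range_PsiL_le
  have h3 := finrank_ker_PsiL_le (N := N)
  have h4 := finrank_Wsub_add_le (actS N) (actU N) (actT N) const_of_invariant
  have h5 := two_mul_finrank_invSub (actS N) (fun x => Cosets.S_smul_S_smul x)
  have h6 := three_mul_finrank_invSub (actU N) (fun x => Cosets.ST_smul_ST_smul_ST_smul x)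
  have h7 := cuspCount_le_finrank_invSub (N := N)
  have hμ : Fintype.card (Q N) = ModularCurve.dedekindPsi N := by
    rw [← Nat.card_eq_fintype_card, Cosets.card_Q]
  have hν2 : Fintype.card {x : Q N // actS N x = x} = ModularCurve.nuTwo N := by
    rw [← Nat.card_eq_fintype_card]; exact Cosets.card_fixed_S N
  have hν3 : Fintype.card {x : Q N // actU N x = x} = ModularCurve.nuThree N := by
    rw [← Nat.card_eq_fintype_card]; exact Cosets.card_fixed_ST N
  rw [hμ] at h1 h4 h5 h6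
  rw [hν2] at h5
  rw [hν3] at h6
  have h5' : (2 : ℚ) * (finrank ℂ (invSub (actS N)) : ℚ)
      = (ModularCurve.dedekindPsi N : ℚ) + (ModularCurve.nuTwo N : ℚ) := by exact_mod_cast h5
  have h6' : (3 : ℚ) * (finrank ℂ (invSub (actU N)) : ℚ)
      = (ModularCurve.dedekindPsi N : ℚ) + 2 * (ModularCurve.nuThree N : ℚ) := by
    exact_mod_cast h6
  have h7' : (ModularCurve.cuspCount N : ℚ) ≤ (finrank ℂ (invSub (actT N)) : ℚ) := by
    exact_mod_cast h7
  have h8 : finrank ℂ (parabolicHoms ℂ (Gamma0 N) ℂ) + ModularCurve.dedekindPsi N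
      + finrank ℂ (invSub (actS N)) + finrank ℂ (invSub (actU N)) + finrank ℂ (invSub (actT N))
      ≤ 2 * ModularCurve.dedekindPsi N + 2 := by omega
  have h8' : (finrank ℂ (parabolicHoms ℂ (Gamma0 N) ℂ) : ℚ) + (ModularCurve.dedekindPsi N : ℚ)
      + (finrank ℂ (invSub (actS N)) : ℚ) + (finrank ℂ (invSub (actU N)) : ℚ)
      + (finrank ℂ (invSub (actT N)) : ℚ)
      ≤ 2 * (ModularCurve.dedekindPsi N : ℚ) + 2 := by exact_mod_cast h8
  unfold ModularCurve.genusFormula
  linarith

end Fin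

end Fermat.Agent.S21.ParDim
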