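import Mathlib

/-!
# S21: parabolic elements of `SL(2, ℤ)`

Every `g ∈ SL(2, ℤ)` with `(tr g)² = 4` is `± δ T^m δ⁻¹` for some `δ ∈ SL(2, ℤ)`, `m ∈ ℤ`.
-/

set_option autoImplicit false

open scoped MatrixGroups

namespace Fermat.Agent.S21

/-- An element of `SL(2, ℤ)` whose first column is `(1, 0)` is a power of `T`. -/
theorem eq_T_zpow_of_col (M : SL(2, ℤ)) (h00 : M 0 0 = 1) (h10 : M 1 0 = 0) :
    M = ModularGroup.T ^ (M 0 1) := by
  have hdet : M 0 0 * M 1 1 - M 0 1 * M 1 0 = 1 := by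
    have := M.det_coe
    rwa [Matrix.det_fin_two] at this
  have h11 : M 1 1 = 1 := by
    rw [h00, h10] at hdet
    linarith
  apply Subtype.ext
  rw [ModularGroup.coe_T_zpow]
  ext i j
  fin_cases i <;> fin_cases j <;> simp [h00, h10, h11]

/-- If `g` fixes a primitive integer vector `(x, y)`, it is conjugate to a power of `T`. -/
theorem exists_conj_T_zpow_of_fixed (g : SL(2, ℤ)) (x y : ℤ) (hxy : IsCoprime x y)
    (h0 : g 0 0 * x + g 0 1 * y = x) (h1 : g 1 0 * x + g 1 1 * y = y) :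
    ∃ (d : SL(2, ℤ)) (m : ℤ), g = d * ModularGroup.T ^ m * d⁻¹ := by
  obtain ⟨s, r, hsr⟩ := hxy
  -- `s * x + r * y = 1`
  let δ : SL(2, ℤ) := ⟨!![x, -r; y, s], by
    rw [Matrix.det_fin_two_of]; linear_combination hsr⟩
  have hδ00 : δ 0 0 = x := rfl
  have hδ01 : δ 0 1 = -r := rfl
  have hδ10 : δ 1 0 = y := rfl
  have hδ11 : δ 1 1 = s := rfl
  set M : SL(2, ℤ) := δ⁻¹ * g * δ with hM
  have hMval : (M : Matrix (Fin 2) (Fin 2) ℤ) =
      (δ⁻¹ : SL(2, ℤ)).1 * (g : Matrix (Fin 2) (Fin 2) ℤ) * (δ : Matrix (Fin 2) (Fin 2) ℤ) := by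
    rw [hM]; rfl
  have hinv : ((δ⁻¹ : SL(2, ℤ)) : Matrix (Fin 2) (Fin 2) ℤ) = !![s, r; -y, x] := by
    rw [Matrix.SpecialLinearGroup.coe_inv, Matrix.adjugate_fin_two]
    ext i j
    fin_cases i <;> fin_cases j <;> simp [hδ00, hδ01, hδ10, hδ11]
  have hM00 : M 0 0 = 1 := by
    show (M : Matrix (Fin 2) (Fin 2) ℤ) 0 0 = 1
    rw [hMval, hinv]
    simp only [Matrix.mul_apply, Fin.sum_univ_two, Matrix.of_apply, Matrix.cons_val',
      Matrix.cons_val_zero, Matrix.cons_val_one, Matrix.cons_val_fin_one]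
    rw [hδ00, hδ10]
    linear_combination s * h0 + r * h1 + hsr
  have hM10 : M 1 0 = 0 := by
    show (M : Matrix (Fin 2) (Fin 2) ℤ) 1 0 = 0
    rw [hMval, hinv]
    simp only [Matrix.mul_apply, Fin.sum_univ_two, Matrix.of_apply, Matrix.cons_val',
      Matrix.cons_val_zero, Matrix.cons_val_one, Matrix.cons_val_fin_one]
    rw [hδ00, hδ10]
    linear_combination (-y) * h0 + x * h1
  refine ⟨δ, M 0 1, ?_⟩
  rw [← eq_T_zpow_of_col M hM00 hM10, hM]
  group

/-- The case of trace `2`. -/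
theorem exists_conj_T_zpow_of_trace_eq_two (g : SL(2, ℤ))
    (h : (g : Matrix (Fin 2) (Fin 2) ℤ).trace = 2) :
    ∃ (d : SL(2, ℤ)) (m : ℤ), g = d * ModularGroup.T ^ m * d⁻¹ := by
  have hdet : g 0 0 * g 1 1 - g 0 1 * g 1 0 = 1 := by
    have := g.det_coe
    rwa [Matrix.det_fin_two] at this
  have htr : g 0 0 + g 1 1 = 2 := by
    rw [Matrix.trace_fin_two] at h
    exact h
  -- `u = g 0 0 - 1`, `u ^ 2 + b c = 0`
  have hu : (g 0 0 - 1) ^ 2 + g 0 1 * g 1 0 = 0 := by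
    have : g 1 1 = 2 - g 0 0 := by linarith
    rw [this] at hdet
    linear_combination -hdet
  by_cases hc : g 1 0 = 0
  · -- then `u = 0`
    have hu0 : g 0 0 - 1 = 0 := by
      rw [hc, mul_zero, add_zero] at hu
      exact pow_eq_zero_iff (two_ne_zero) |>.mp hu
    refine exists_conj_T_zpow_of_fixed g 1 0 isCoprime_one_left ?_ ?_
    · rw [mul_one, mul_zero, add_zero]; linarith
    · rw [mul_one, mul_zero, add_zero]; exact hc
  · set e : ℕ := Int.gcd (g 0 0 - 1) (g 1 0) with he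
    have he_pos : 0 < e := Int.gcd_pos_of_ne_zero_right _ hc
    have he0 : (e : ℤ) ≠ 0 := by exact_mod_cast he_pos.ne'
    obtain ⟨x, hx⟩ : (e : ℤ) ∣ g 0 0 - 1 := Int.gcd_dvd_left _ _
    obtain ⟨y, hy⟩ : (e : ℤ) ∣ g 1 0 := Int.gcd_dvd_right _ _
    have hcop : IsCoprime x y := by
      rw [Int.isCoprime_iff_gcd_eq_one]
      have h1 := Int.gcd_div_gcd_div_gcd (i := g 0 0 - 1) (j := g 1 0) (by rw [← he]; exact he_pos)
      rw [← he] at h1
      have e1 : (g 0 0 - 1) / e = x := by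
        rw [hx]; exact Int.mul_ediv_cancel_left _ he0
      have e2 : g 1 0 / e = y := by
        rw [hy]; exact Int.mul_ediv_cancel_left _ he0
      rwa [e1, e2] at h1
    refine exists_conj_T_zpow_of_fixed g x y hcop ?_ ?_
    · -- `(u x + b y) e = u² + b c = 0`
      have : (e : ℤ) * ((g 0 0 - 1) * x + g 0 1 * y) = 0 := by
        linear_combination hu - (g 0 0 - 1) * hx - g 0 1 * hy
      have := (mul_eq_zero.mp this).resolve_left he0
      linarith
    · have h11 : g 1 1 = 2 - g 0 0 := by linarith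
      have : (e : ℤ) * (g 1 0 * x - (g 0 0 - 1) * y) = 0 := by
        linear_combination (-(g 1 0)) * hx + (g 0 0 - 1) * hy
      have := (mul_eq_zero.mp this).resolve_left he0
      rw [h11]
      linarith

/-- **Parabolic elements of `SL(2, ℤ)`**: every element with `(tr g)² = 4` is `± δ T^m δ⁻¹`. -/
theorem exists_conj_T_zpow (g : SL(2, ℤ))
    (h : (g : Matrix (Fin 2) (Fin 2) ℤ).trace ^ 2 = 4) :
    ∃ (d : SL(2, ℤ)) (m : ℤ),
      g = d * ModularGroup.T ^ m * d⁻¹ ∨ g = -(d * ModularGroup.T ^ m * d⁻¹) := by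
  have h2 : (g : Matrix (Fin 2) (Fin 2) ℤ).trace = 2 ∨
      (g : Matrix (Fin 2) (Fin 2) ℤ).trace = -2 := by
    have : ((g : Matrix (Fin 2) (Fin 2) ℤ).trace - 2) *
        ((g : Matrix (Fin 2) (Fin 2) ℤ).trace + 2) = 0 := by
      linear_combination h
    rcases mul_eq_zero.mp this with h1 | h1
    · left; linarith
    · right; linarith
  rcases h2 with h2 | h2
  · obtain ⟨d, m, hd⟩ := exists_conj_T_zpow_of_trace_eq_two g h2
    exact ⟨d, m, Or.inl hd⟩
  · have hneg : ((-g : SL(2, ℤ)) : Matrix (Fin 2) (Fin 2) ℤ).trace = 2 := by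
      rw [Matrix.SpecialLinearGroup.coe_neg, Matrix.trace_neg, h2]
      norm_num
    obtain ⟨d, m, hd⟩ := exists_conj_T_zpow_of_trace_eq_two (-g) hneg
    refine ⟨d, m, Or.inr ?_⟩
    rw [← hd, neg_neg]

end Fermat.Agent.S21
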