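import Fermat.Agent.S21.Primitive
import Fermat.Agent.S21.ParabolicMat

/-!
# S21, piece (B): the periods vanish on parabolic elements

For `γ ∈ Γ₀(N)` with `trace² = 4` the period `periodMap N f γ` vanishes; hence the range of
`periodHomPair N` is contained in the parabolic homomorphisms.
-/

set_option autoImplicit false

namespace Fermat.Agent.S21.Parabolic

open UpperHalfPlane Complex Filter Topology CongruenceSubgroup ModularForm
open ModularCurve ModularCurve.Period Fermat.Agent.S21
open scoped MatrixGroups ModularForm Manifold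

theorem tendsto_vadd_atImInfty' (x : ℝ) :
    Tendsto (fun τ : ℍ => x +ᵥ τ) atImInfty atImInfty := by
  rw [atImInfty, tendsto_comap_iff]
  have : (UpperHalfPlane.im ∘ fun τ : ℍ => x +ᵥ τ) = UpperHalfPlane.im := by
    funext τ
    simp
  rw [this]
  exact tendsto_comap

variable {N : ℕ} [NeZero N]

/-- The periods vanish on elements of trace `±2`. -/
theorem periodMap_eq_zero_of_trace (f : CuspForm (Gamma0 N) 2) (γ : Gamma0 N)
    (h : ((γ : SL(2, ℤ)) : Matrix (Fin 2) (Fin 2) ℤ).trace ^ 2 = 4) :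
    periodMap N f (Additive.ofMul γ) = 0 := by
  obtain ⟨δ, m, hγ⟩ := exists_conj_T_zpow (γ : SL(2, ℤ)) h
  have hact : ∀ z : ℍ, (γ : SL(2, ℤ)) • z = (δ * ModularGroup.T ^ m * δ⁻¹) • z := by
    intro z
    rcases hγ with hγ | hγ
    · rw [hγ]
    · rw [hγ, ModularGroup.SL_neg_smul]
  obtain ⟨L, hL⟩ := (hasEquivariantPrimitive f).2.2.2 δ
  have hc : ∀ w : ℍ, periodMap N f (Additive.ofMul γ) =
      Phi (⇑f) (δ • ((m : ℝ) +ᵥ w)) - Phi (⇑f) (δ • w) := by
    intro w
    rw [periodMap_apply' f γ (δ • w), hact, mul_smul, mul_smul, inv_smul_smul,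
      modular_T_zpow_smul]
  have h1 : Tendsto (fun w : ℍ => Phi (⇑f) (δ • ((m : ℝ) +ᵥ w))) atImInfty (𝓝 L) :=
    hL.comp (tendsto_vadd_atImInfty' m)
  have h2 := h1.sub hL
  have h3 : Tendsto (fun _ : ℍ => periodMap N f (Additive.ofMul γ)) atImInfty (𝓝 (L - L)) :=
    h2.congr fun w => (hc w).symm
  have h4 := tendsto_nhds_unique h3 tendsto_const_nhds
  rw [sub_self] at h4
  exact h4.symm

theorem periodMap_mem_parabolicHoms (f : CuspForm (Gamma0 N) 2) :
    periodMap N f ∈ parabolicHoms ℂ (Gamma0 N) ℂ :=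
  fun γ hγ => periodMap_eq_zero_of_trace f γ hγ

/-- The range of the period pairing consists of parabolic homomorphisms. -/
theorem range_periodHomPair_le :
    LinearMap.range (periodHomPair N) ≤ parabolicHoms ℂ (Gamma0 N) ℂ := by
  obtain ⟨pml, hpml, hdef⟩ := periodHomPair_def N (existsPeriodMapLinear N)
  rintro _ ⟨⟨f, g⟩, rfl⟩
  rw [hdef, LinearMap.coprod_apply, LinearMap.comp_apply, LinearMap.comp_apply,
    LinearMap.add_apply, LinearMap.sub_apply, LinearMap.id_apply, LinearMap.id_apply, hpml f,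
    hpml g]
  have hf := periodMap_mem_parabolicHoms f
  have hg := periodMap_mem_parabolicHoms g
  exact Submodule.add_mem _
    (Submodule.add_mem _ hf (charInvolution_mem_parabolicHoms N ℂ ℂ hf))
    (Submodule.sub_mem _ hg (charInvolution_mem_parabolicHoms N ℂ ℂ hg))

end Fermat.Agent.S21.Parabolic
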