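import Fermat.Prelude.Def_ModularCurve_PeriodHomPair
import Fermat.Agent.S20.Basic
import Fermat.Agent.S21.ParDim
import Fermat.Agent.S21.Parabolic

set_option autoImplicit false
open ModularCurve CongruenceSubgroup

namespace Fermat.Agent.S21.Assembly

/-- Final assembly of S21 from injectivity and the dimension formula. -/
theorem of_injective (N : ℕ) [NeZero N]
    (hinj : Function.Injective (ModularCurve.periodHomPair N))
    (hS20 : (Module.finrank ℂ (CuspForm (CongruenceSubgroup.Gamma0 N) 2) : ℚ)
      = ModularCurve.genusFormula N) :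
    Function.Injective (ModularCurve.periodHomPair N)
      ∧ LinearMap.range (ModularCurve.periodHomPair N)
          = ModularCurve.Period.parabolicHoms ℂ (CongruenceSubgroup.Gamma0 N) ℂ := by
  refine ⟨hinj, ?_⟩
  have := Fermat.Agent.S21.ParDim.finiteDimensional_parabolicHoms N
  have : FiniteDimensional ℂ (CuspForm (Gamma0 N : Subgroup (GL (Fin 2) ℝ)) 2) :=
    LinearEquiv.finiteDimensional (Fermat.Agent.S20.cuspFormEquiv N 2).symm
  refine Submodule.eq_of_le_of_finrank_le Fermat.Agent.S21.Parabolic.range_periodHomPair_le ?_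
  rw [LinearMap.finrank_range_of_inj hinj, Module.finrank_prod]
  have h := Fermat.Agent.S21.ParDim.finrank_parabolicHoms_le N
  rw [← hS20] at h
  have h2 : (Module.finrank ℂ (Period.parabolicHoms ℂ (Gamma0 N) ℂ) : ℚ)
      ≤ ((Module.finrank ℂ (CuspForm (Gamma0 N : Subgroup (GL (Fin 2) ℝ)) 2)
        + Module.finrank ℂ (CuspForm (Gamma0 N : Subgroup (GL (Fin 2) ℝ)) 2) : ℕ) : ℚ) := by
    push_cast; linarith
  exact_mod_cast h2

end Fermat.Agent.S21.Assembly
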