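import Mathlib
import Fermat.Agent.S20.CuspExp

/-!
# S21, key lemma for the injectivity of the period map: a maximum modulus principle on `X₀(N)`

A holomorphic function on the upper half plane whose absolute value is `Γ₀(N)`-invariant, which is
periodic at every cusp and bounded at every cusp, is constant.

The proof applies the maximum modulus principle to the vector valued function whose components
are the cusp functions of the translates of `H` by coset representatives of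
`SL₂(ℤ) / Γ₀(N)`: its Euclidean norm is invariant under the full modular group.
-/

set_option autoImplicit false

namespace Fermat.Agent.S21.MaxMod

open UpperHalfPlane CongruenceSubgroup ModularForm Function Filter
open scoped MatrixGroups ModularForm Manifold Topology Real
open Fermat.Agent.S20 Fermat.Agent.S20.CuspExp

local notation "𝕢" => Periodic.qParam

variable {N : ℕ} {H : ℍ → ℂ}

/-- the translate of `H` attached to the coset `q` -/
noncomputable def cmp (N : ℕ) (H : ℍ → ℂ) (q : Q N) : ℍ → ℂ :=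
  fun z => H ((q.out : SL(2, ℤ))⁻¹ • z)

theorem cmp_eq_slash (H : ℍ → ℂ) (q : Q N) :
    cmp N H q = H ∣[(0 : ℤ)] (q.out : SL(2, ℤ))⁻¹ := by
  funext z
  simp [cmp, ModularForm.SL_slash_apply]

theorem nice_cmp (hol : MDiff H)
    (hper : ∀ δ : SL(2, ℤ), ∀ z : ℍ, H (δ • ((N : ℝ) +ᵥ z)) = H (δ • z))
    (hbd : ∀ δ : SL(2, ℤ), IsBoundedAtImInfty (fun z : ℍ => H (δ • z))) (q : Q N) :
    Nice (N : ℝ) (cmp N H q) where
  mdiff := by rw [cmp_eq_slash]; exact hol.slash 0 _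
  vadd := fun z => hper _ z
  bdd := hbd _

theorem norm_smul_eq_cmp (hinv : ∀ γ ∈ Gamma0 N, ∀ z : ℍ, ‖H (γ • z)‖ = ‖H z‖)
    (δ : SL(2, ℤ)) (z : ℍ) :
    ‖H (δ • z)‖ = ‖cmp N H (QuotientGroup.mk δ⁻¹) z‖ := by
  obtain ⟨γ, hγ⟩ := QuotientGroup.mk_out_eq_mul (Gamma0 N) δ⁻¹
  unfold cmp
  rw [hγ, mul_inv_rev, inv_inv, mul_smul, hinv _ (inv_mem γ.2)]

theorem norm_cmp_smul (hinv : ∀ γ ∈ Gamma0 N, ∀ z : ℍ, ‖H (γ • z)‖ = ‖H z‖)
    (g : SL(2, ℤ)) (q : Q N) (z : ℍ) :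
    ‖cmp N H q (g • z)‖ = ‖cmp N H (g⁻¹ • q) z‖ := by
  have h1 : cmp N H q (g • z) = H (((q.out : SL(2, ℤ))⁻¹ * g) • z) := by
    simp [cmp, mul_smul]
  rw [h1, norm_smul_eq_cmp hinv]
  congr 2
  rw [mul_inv_rev, inv_inv]
  conv_rhs => rw [← QuotientGroup.out_eq' q]
  rfl

theorem sum_norm_sq_smul [Fintype (Q N)]
    (hinv : ∀ γ ∈ Gamma0 N, ∀ z : ℍ, ‖H (γ • z)‖ = ‖H z‖) (g : SL(2, ℤ)) (z : ℍ) :
    ∑ q : Q N, ‖cmp N H q (g • z)‖ ^ 2 = ∑ q : Q N, ‖cmp N H q z‖ ^ 2 := by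
  simp_rw [norm_cmp_smul hinv]
  exact Equiv.sum_comp (MulAction.toPerm g⁻¹) (fun q => ‖cmp N H q z‖ ^ 2)

/-- the vector of cusp functions of the translates of `H` -/
noncomputable def vec (N : ℕ) [Fintype (Q N)] (H : ℍ → ℂ) (w : ℂ) : EuclideanSpace ℂ (Q N) :=
  WithLp.toLp 2 (fun q : Q N => cuspFunction (N : ℝ) (cmp N H q) w)

theorem vec_apply [Fintype (Q N)] (H : ℍ → ℂ) (w : ℂ) (q : Q N) :
    vec N H w q = cuspFunction (N : ℝ) (cmp N H q) w := rfl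

section Main

variable [NeZero N] [Fintype (Q N)]

theorem vec_qParam (hol : MDiff H)
    (hper : ∀ δ : SL(2, ℤ), ∀ z : ℍ, H (δ • ((N : ℝ) +ᵥ z)) = H (δ • z))
    (hbd : ∀ δ : SL(2, ℤ), IsBoundedAtImInfty (fun z : ℍ => H (δ • z))) (τ : ℍ) (q : Q N) :
    vec N H (𝕢 (N : ℝ) τ) q = cmp N H q τ := by
  rw [vec_apply]
  exact eq_cuspFunction τ pos_N.ne' (nice_cmp hol hper hbd q).per

theorem norm_vec_qParam (hol : MDiff H)
    (hper : ∀ δ : SL(2, ℤ), ∀ z : ℍ, H (δ • ((N : ℝ) +ᵥ z)) = H (δ • z))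
    (hbd : ∀ δ : SL(2, ℤ), IsBoundedAtImInfty (fun z : ℍ => H (δ • z))) (τ : ℍ) :
    ‖vec N H (𝕢 (N : ℝ) τ)‖ = Real.sqrt (∑ q : Q N, ‖cmp N H q τ‖ ^ 2) := by
  rw [EuclideanSpace.norm_eq]
  simp_rw [vec_qParam hol hper hbd]

theorem differentiableOn_vec (hol : MDiff H)
    (hper : ∀ δ : SL(2, ℤ), ∀ z : ℍ, H (δ • ((N : ℝ) +ᵥ z)) = H (δ • z))
    (hbd : ∀ δ : SL(2, ℤ), IsBoundedAtImInfty (fun z : ℍ => H (δ • z))) :
    DifferentiableOn ℂ (vec N H) (Metric.ball 0 1) := by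
  rw [differentiableOn_euclidean]
  intro q
  exact differentiableOn_cuspFunction_ball pos_N (nice_cmp hol hper hbd q).per
    (nice_cmp hol hper hbd q).mdiff (nice_cmp hol hper hbd q).bdd

theorem vec_eqOn_const (hol : MDiff H)
    (hinv : ∀ γ ∈ Gamma0 N, ∀ z : ℍ, ‖H (γ • z)‖ = ‖H z‖)
    (hper : ∀ δ : SL(2, ℤ), ∀ z : ℍ, H (δ • ((N : ℝ) +ᵥ z)) = H (δ • z))
    (hbd : ∀ δ : SL(2, ℤ), IsBoundedAtImInfty (fun z : ℍ => H (δ • z))) :
    Set.EqOn (vec N H) (Function.const ℂ (vec N H 0)) (Metric.ball 0 1) := by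
  have hN : (0 : ℝ) < (N : ℝ) := pos_N
  refine Complex.eq_const_of_exists_le (r := Real.exp (-π / N))
    (differentiableOn_vec hol hper hbd) (Real.exp_nonneg _) ?_ (fun w hw => ?_)
  · rw [Real.exp_lt_one_iff]  -- exp x < 1 ↔ x < 0
    exact div_neg_of_neg_of_pos (neg_lt_zero.mpr Real.pi_pos) hN
  · simp only [Metric.mem_closedBall, dist_zero_right]
    rcases eq_or_ne w 0 with rfl | hw'
    · exact ⟨0, by simpa only [norm_zero] using Real.exp_nonneg _, le_rfl⟩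
    · have hw1 : ‖w‖ < 1 := mem_ball_zero_iff.mp hw
      set τ : ℍ := ⟨_, Periodic.im_invQParam_pos_of_norm_lt_one hN hw1 hw'⟩ with hτ
      have hτw : 𝕢 (N : ℝ) τ = w := Periodic.qParam_right_inv hN.ne' hw'
      obtain ⟨γ, hγ, -⟩ := ModularGroup.exists_one_half_le_im_smul_and_norm_denom_le τ
      refine ⟨𝕢 (N : ℝ) ((γ • τ : ℍ) : ℂ), ?_, ?_⟩
      · rw [Periodic.norm_qParam]
        apply Real.exp_le_exp.mpr
        rw [div_le_div_iff_of_pos_right hN]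
        have : (1 : ℝ) / 2 ≤ ((γ • τ : ℍ) : ℂ).im := hγ
        nlinarith [Real.pi_pos]
      · rw [← hτw, norm_vec_qParam hol hper hbd, norm_vec_qParam hol hper hbd,
          sum_norm_sq_smul hinv]

end Main

/-- **Maximum modulus principle on `X₀(N)`**: a holomorphic function on `ℍ` with
`Γ₀(N)`-invariant absolute value, which is periodic and bounded at every cusp, is constant. -/
theorem eq_const_of_invariant_norm [NeZero N] (H : ℍ → ℂ) (hol : MDiff H)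
    (hinv : ∀ γ ∈ Gamma0 N, ∀ z : ℍ, ‖H (γ • z)‖ = ‖H z‖)
    (hper : ∀ δ : SL(2, ℤ), ∀ z : ℍ, H (δ • ((N : ℝ) +ᵥ z)) = H (δ • z))
    (hbd : ∀ δ : SL(2, ℤ), IsBoundedAtImInfty (fun z : ℍ => H (δ • z))) :
    ∃ c : ℂ, ∀ z : ℍ, H z = c := by
  have : Finite (Q N) := by
    have : (Gamma0 N).FiniteIndex := inferInstance
    exact Subgroup.finite_quotient_of_finiteIndex
  let _ : Fintype (Q N) := Fintype.ofFinite _
  set q₀ : Q N := QuotientGroup.mk 1 with hq₀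
  refine ⟨vec N H 0 q₀, fun z => ?_⟩
  have key := vec_eqOn_const hol hinv hper hbd
  have hball : ∀ τ : ℍ, 𝕢 (N : ℝ) τ ∈ Metric.ball (0 : ℂ) 1 := fun τ => by
    rw [mem_ball_zero_iff]
    exact Periodic.norm_qParam_lt_one pos_N τ.2
  have h1 : ∀ τ : ℍ, cmp N H q₀ τ = vec N H 0 q₀ := fun τ => by
    rw [← vec_qParam hol hper hbd τ q₀, key (hball τ)]
    rfl
  have := h1 ((q₀.out : SL(2, ℤ)) • z)
  simpa [cmp, ← mul_smul] using this

end Fermat.Agent.S21.MaxMod
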