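import Fermat.Agent.S21.Primitive
import Fermat.Agent.S21.MaxMod

/-!
# S21: injectivity of `periodHomPair` (Eichler–Shimura, injectivity half)

* `exists_eq_const_of_re_invariant` : maximum principle for real parts, deduced from the key
  lemma `MaxMod.eq_const_of_invariant_norm` applied to `exp ∘ Ψ`.
* `periodMap_eq_zero_of_smul_eq` : the period of a cusp form along an element of `Γ₀(N)` which
  acts on `ℍ` like a conjugate of a translation vanishes (analytic part of the parabolic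
  vanishing).
* `periodHomPair_injective` : `periodHomPair N` is injective.  If `periodHomPair N (f, g) = 0`
  then, with `A`, `B` the Eichler integrals of `f + g` and `f - g`, the real part of
  `A + conj ∘ B ∘ J` and the imaginary part of `A - conj ∘ B ∘ J` are `Γ₀(N)`-invariant; by the
  maximum principle (`exists_eq_const_of_re_invariant`) both functions are constant, hence so are
  `A` and `B`, hence `f + g = 0 = f - g`.
-/

set_option autoImplicit false

namespace Fermat.Agent.S21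

open UpperHalfPlane Complex Filter Topology CongruenceSubgroup ModularForm
open ModularCurve ModularCurve.Period Fermat.Agent.S22
open scoped MatrixGroups ModularForm Manifold ComplexConjugate

section MaxPrinciple

/-- If `exp ∘ Ψ` is constant for a holomorphic `Ψ` on the upper half plane then `Ψ` is
constant. -/
theorem exists_eq_const_of_exp_const {Ψ : ℍ → ℂ} (hol : MDiff Ψ) {c : ℂ}
    (hc : ∀ z : ℍ, Complex.exp (Ψ z) = c) : ∃ c' : ℂ, Ψ = Function.const ℍ c' := by
  have hd : DifferentiableOn ℂ (Ψ ∘ ofComplex) {z : ℂ | 0 < z.im} :=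
    UpperHalfPlane.mdifferentiable_iff.mp hol
  have hopen : IsOpen {z : ℂ | 0 < z.im} := isOpen_lt continuous_const Complex.continuous_im
  have hconn : IsPreconnected {z : ℂ | 0 < z.im} := (convex_halfSpace_im_gt 0).isPreconnected
  have hderiv : Set.EqOn (deriv (Ψ ∘ ofComplex)) 0 {z : ℂ | 0 < z.im} := by
    intro z hz
    have h1 : HasDerivAt (Ψ ∘ ofComplex) (deriv (Ψ ∘ ofComplex) z) z :=
      (hd.differentiableAt (hopen.mem_nhds hz)).hasDerivAt
    have h2 : HasDerivAt (fun w => Complex.exp ((Ψ ∘ ofComplex) w))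
        (Complex.exp ((Ψ ∘ ofComplex) z) * deriv (Ψ ∘ ofComplex) z) z := h1.cexp
    have h3 : (fun w => Complex.exp ((Ψ ∘ ofComplex) w)) =ᶠ[𝓝 z] fun _ => c := by
      filter_upwards [hopen.mem_nhds hz] with w hw
      exact hc _
    have h4 : HasDerivAt (fun w => Complex.exp ((Ψ ∘ ofComplex) w)) 0 z :=
      (hasDerivAt_const z c).congr_of_eventuallyEq h3
    have h5 := h2.unique h4
    simpa [Complex.exp_ne_zero] using h5
  refine ⟨Ψ UpperHalfPlane.I, funext fun z => ?_⟩
  have hI : ((UpperHalfPlane.I : ℍ) : ℂ) ∈ {z : ℂ | 0 < z.im} := UpperHalfPlane.I.2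
  have hz : (z : ℂ) ∈ {z : ℂ | 0 < z.im} := z.2
  have := hopen.is_const_of_deriv_eq_zero hconn hd hderiv hz hI
  simpa only [Function.comp_apply, ofComplex_apply, Function.const_apply] using this

/-- **Maximum principle for real parts.** A holomorphic function whose real part is
`Γ₀(N)`-invariant, with `N`-periodic translates having limits at `i∞`, is constant. -/
theorem exists_eq_const_of_re_invariant {N : ℕ} [NeZero N] {Ψ : ℍ → ℂ}
    (hol : MDiff Ψ)
    (hinv : ∀ γ ∈ Gamma0 N, ∀ z : ℍ, (Ψ (γ • z)).re = (Ψ z).re)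
    (hper : ∀ (δ : SL(2, ℤ)) (z : ℍ), Ψ (δ • ((N : ℝ) +ᵥ z)) = Ψ (δ • z))
    (hlim : ∀ δ : SL(2, ℤ), ∃ L : ℂ, Tendsto (fun z : ℍ => Ψ (δ • z)) atImInfty (𝓝 L)) :
    ∃ c : ℂ, Ψ = Function.const ℍ c := by
  have hE : MDiff (fun z : ℍ => Complex.exp (Ψ z)) := by
    rw [UpperHalfPlane.mdifferentiable_iff]
    exact (UpperHalfPlane.mdifferentiable_iff.mp hol).cexp
  obtain ⟨c, hc⟩ := MaxMod.eq_const_of_invariant_norm (N := N) (fun z : ℍ => Complex.exp (Ψ z)) hE
    (fun γ hγ z => by simp only [Complex.norm_exp, hinv γ hγ z])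
    (fun δ z => by simp only [hper δ z])
    (fun δ => by
      obtain ⟨L, hL⟩ := hlim δ
      exact ((Complex.continuous_exp.tendsto L).comp hL).isBigO_one ℝ)
  exact exists_eq_const_of_exp_const hol hc

end MaxPrinciple

section Shift

theorem tendsto_vadd_atImInfty (m : ℝ) :
    Tendsto (fun z : ℍ => m +ᵥ z) atImInfty atImInfty := by
  rw [atImInfty, tendsto_comap_iff]
  have : (UpperHalfPlane.im ∘ fun z : ℍ => m +ᵥ z) = UpperHalfPlane.im := by
    funext z
    simp [UpperHalfPlane.vadd_im]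
  rw [this]
  exact tendsto_comap

theorem tendsto_J_smul_atImInfty :
    Tendsto (fun z : ℍ => J • z) atImInfty atImInfty := by
  rw [atImInfty, tendsto_comap_iff]
  have : (UpperHalfPlane.im ∘ fun z : ℍ => J • z) = UpperHalfPlane.im := by
    funext z
    show (J • z).im = z.im
    rw [← UpperHalfPlane.coe_im, coe_J_smul]
    simp
  rw [this]
  exact tendsto_comap

theorem J_smul_vadd (m : ℝ) (z : ℍ) : J • (m +ᵥ z) = (-m) +ᵥ (J • z) := by
  ext1
  rw [coe_J_smul, UpperHalfPlane.coe_vadd, UpperHalfPlane.coe_vadd, coe_J_smul]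
  simp
  ring

theorem J_mul_mapGL (γ : SL(2, ℤ)) :
    J * (Matrix.SpecialLinearGroup.mapGL ℝ γ) = Matrix.SpecialLinearGroup.mapGL ℝ (jConjSL γ) * J := by
  ext i j
  fin_cases i <;> fin_cases j <;>
    simp [J, jConjMat, Matrix.mul_apply, Fin.sum_univ_two]

theorem J_smul_smul (γ : SL(2, ℤ)) (z : ℍ) : J • (γ • z) = jConjSL γ • (J • z) := by
  show J • ((Matrix.SpecialLinearGroup.mapGL ℝ γ) • z)
    = (Matrix.SpecialLinearGroup.mapGL ℝ (jConjSL γ)) • (J • z)
  rw [← mul_smul, ← mul_smul, J_mul_mapGL]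

end Shift

section Sharp

/-- The twist of a function on `ℍ` by the antiholomorphic involution `z ↦ -conj z`. -/
noncomputable def sharp (F : ℍ → ℂ) : ℍ → ℂ := fun z => conj (F (J • z))

theorem sharp_apply (F : ℍ → ℂ) (z : ℍ) : sharp F z = conj (F (J • z)) := rfl

theorem sharp_eq_slash (F : ℍ → ℂ) : sharp F = F ∣[(0 : ℤ)] J := by
  funext z
  simp [sharp, slash_apply]

theorem J_smul_J_smul (z : ℍ) : J • (J • z) = z := by
  rw [← mul_smul, ← sq, J_sq, one_smul]

theorem sharp_sharp (F : ℍ → ℂ) : sharp (sharp F) = F := by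
  funext z
  simp [sharp, J_smul_J_smul]

theorem mdifferentiable_sharp {F : ℍ → ℂ} (hF : MDiff F) : MDiff (sharp F) := by
  rw [sharp_eq_slash]
  exact hF.slash 0 J

/-- Regularity at the cusps: holomorphic, with `N`-periodic translates having limits at `i∞`. -/
structure CuspReg (N : ℕ) (Ψ : ℍ → ℂ) : Prop where
  holo : MDiff Ψ
  per : ∀ (δ : SL(2, ℤ)) (z : ℍ), Ψ (δ • ((N : ℝ) +ᵥ z)) = Ψ (δ • z)
  lim : ∀ δ : SL(2, ℤ), ∃ L : ℂ, Tendsto (fun z : ℍ => Ψ (δ • z)) atImInfty (𝓝 L)

variable {N : ℕ}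

theorem CuspReg.add {Ψ₁ Ψ₂ : ℍ → ℂ} (h₁ : CuspReg N Ψ₁) (h₂ : CuspReg N Ψ₂) :
    CuspReg N (Ψ₁ + Ψ₂) where
  holo := h₁.holo.add h₂.holo
  per δ z := by simp only [Pi.add_apply, h₁.per, h₂.per]
  lim δ := by
    obtain ⟨L₁, hL₁⟩ := h₁.lim δ
    obtain ⟨L₂, hL₂⟩ := h₂.lim δ
    exact ⟨L₁ + L₂, hL₁.add hL₂⟩

theorem CuspReg.const_smul {Ψ : ℍ → ℂ} (h : CuspReg N Ψ) (c : ℂ) : CuspReg N (c • Ψ) where
  holo := h.holo.const_smul c
  per δ z := by simp only [Pi.smul_apply, h.per]
  lim δ := by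
    obtain ⟨L, hL⟩ := h.lim δ
    exact ⟨c • L, hL.const_smul c⟩

theorem CuspReg.sharp {Ψ : ℍ → ℂ} (h : CuspReg N Ψ) : CuspReg N (sharp Ψ) where
  holo := mdifferentiable_sharp h.holo
  per δ z := by
    simp only [sharp_apply, J_smul_smul, J_smul_vadd]
    congr 1
    have := h.per (jConjSL δ) ((-(N : ℝ)) +ᵥ (J • z))
    rw [← this]
    congr 2
    ext1
    simp
  lim δ := by
    obtain ⟨L, hL⟩ := h.lim (jConjSL δ)
    refine ⟨conj L, ?_⟩
    have h1 := (hL.comp tendsto_J_smul_atImInfty)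
    have h2 := (Complex.continuous_conj.tendsto L).comp h1
    refine h2.congr fun z => ?_
    simp only [Function.comp_apply, sharp_apply, J_smul_smul]

end Sharp

section Parabolic

variable {N : ℕ} [NeZero N]

/-- **Parabolic vanishing, analytic part.** If `γ ∈ Γ₀(N)` acts on `ℍ` as the conjugate by `δ` of
the translation by `m`, then the period of any cusp form along `γ` vanishes. -/
theorem periodMap_eq_zero_of_smul_eq (f : CuspForm (Gamma0 N) 2) (γ : Gamma0 N) (δ : SL(2, ℤ))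
    (m : ℝ) (h : ∀ z : ℍ, (γ : SL(2, ℤ)) • (δ • z) = δ • (m +ᵥ z)) :
    periodMap N f (Additive.ofMul γ) = 0 := by
  have hf := allGood_cuspForm f
  have h1 : Tendsto (Phi (⇑f ∣[(2 : ℤ)] δ)) atImInfty (𝓝 0) :=
    tendsto_Phi_zero (exists_bound_slash f δ)
  have h2 : Tendsto (fun z : ℍ => Phi (⇑f ∣[(2 : ℤ)] δ) (m +ᵥ z)) atImInfty (𝓝 0) :=
    h1.comp (tendsto_vadd_atImInfty m)
  have h3 : ∀ z : ℍ, periodMap N f (Additive.ofMul γ)
      = Phi (⇑f ∣[(2 : ℤ)] δ) (m +ᵥ z) - Phi (⇑f ∣[(2 : ℤ)] δ) z := by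
    intro z
    rw [periodMap_apply' f γ (δ • z), h z, Phi_smul_eq hf, Phi_smul_eq hf]
    ring
  have h4 : Tendsto (fun _ : ℍ => periodMap N f (Additive.ofMul γ)) atImInfty (𝓝 (0 - 0)) :=
    (h2.sub h1).congr fun z => (h3 z).symm
  rw [sub_zero] at h4
  exact tendsto_nhds_unique tendsto_const_nhds h4

/-- The period along a conjugate of a power of `T` lying in `Γ₀(N)` vanishes. -/
theorem periodMap_conj_T_zpow (f : CuspForm (Gamma0 N) 2) (δ : SL(2, ℤ)) (m : ℤ)
    (h : δ * ModularGroup.T ^ m * δ⁻¹ ∈ Gamma0 N) :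
    periodMap N f (Additive.ofMul ⟨δ * ModularGroup.T ^ m * δ⁻¹, h⟩) = 0 := by
  refine periodMap_eq_zero_of_smul_eq f _ δ (m : ℝ) fun z => ?_
  show (δ * ModularGroup.T ^ m * δ⁻¹) • (δ • z) = _
  rw [← mul_smul, inv_mul_cancel_right, mul_smul, UpperHalfPlane.modular_T_zpow_smul]

/-- The Eichler integral of a cusp form has `N`-periodic translates. -/
theorem Phi_smul_vadd (f : CuspForm (Gamma0 N) 2) (δ : SL(2, ℤ)) (z : ℍ) :
    Phi ⇑f (δ • ((N : ℝ) +ᵥ z)) = Phi ⇑f (δ • z) := by
  have h0 := periodMap_conj_T_zpow f δ (N : ℤ) (conj_T_zpow_mem_gamma0 N δ)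
  rw [periodMap_apply' f _ (δ • z)] at h0
  have h1 : (δ * ModularGroup.T ^ (N : ℤ) * δ⁻¹) • (δ • z) = δ • ((N : ℝ) +ᵥ z) := by
    rw [← mul_smul, inv_mul_cancel_right, mul_smul, UpperHalfPlane.modular_T_zpow_smul]
    simp
  rw [← h1]
  exact sub_eq_zero.mp h0

/-- The Eichler integral of a cusp form is regular at the cusps. -/
theorem cuspReg_Phi (f : CuspForm (Gamma0 N) 2) : CuspReg N (Phi ⇑f) where
  holo := mdifferentiable_bigGH (allGood_cuspForm f).good 0
  per := Phi_smul_vadd f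
  lim δ := (hasEquivariantPrimitive f).2.2.2 δ

end Parabolic

section Main

variable {N : ℕ} [NeZero N]

/-- A cusp form with constant Eichler integral vanishes. -/
theorem eq_zero_of_Phi_const (f : CuspForm (Gamma0 N) 2) {c : ℂ}
    (h : Phi ⇑f = Function.const ℍ c) (τ : ℍ) : f τ = 0 := by
  have h1 := hasDerivAt_Phi (allGood_cuspForm f).good τ
  have h2 : HasDerivAt (Phi ⇑f ∘ ofComplex) 0 (τ : ℂ) := by
    rw [h]
    exact hasDerivAt_const _ _
  exact h1.unique h2

theorem periodMap_add (f g : CuspForm (Gamma0 N) 2) (γ : Gamma0 N) :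
    periodMap N (f + g) (Additive.ofMul γ)
      = periodMap N f (Additive.ofMul γ) + periodMap N g (Additive.ofMul γ) := by
  have := (periodLin N).map_add f g
  simp only [periodLin_apply] at this
  rw [this, AddMonoidHom.add_apply]

theorem periodMap_sub (f g : CuspForm (Gamma0 N) 2) (γ : Gamma0 N) :
    periodMap N (f - g) (Additive.ofMul γ)
      = periodMap N f (Additive.ofMul γ) - periodMap N g (Additive.ofMul γ) := by
  have := (periodLin N).map_sub f g
  simp only [periodLin_apply] at this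
  rw [this, AddMonoidHom.sub_apply]

/-- The transformation law of the twisted Eichler integral. -/
theorem sharp_Phi_smul (f : CuspForm (Gamma0 N) 2) (γ : Gamma0 N) (z : ℍ) :
    sharp (Phi ⇑f) ((γ : SL(2, ℤ)) • z) = sharp (Phi ⇑f) z
      + conj (periodMap N f (Additive.ofMul (jConjGamma0 N γ))) := by
  rw [sharp_apply, sharp_apply, J_smul_smul, periodMap_apply' f (jConjGamma0 N γ) (J • z),
    jConjGamma0_coe, ← map_add]
  congr 1
  ring

theorem Phi_smul_gamma0 (f : CuspForm (Gamma0 N) 2) (γ : Gamma0 N) (z : ℍ) :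
    Phi ⇑f ((γ : SL(2, ℤ)) • z) = Phi ⇑f z + periodMap N f (Additive.ofMul γ) := by
  rw [periodMap_apply' f γ z]
  ring

/-- If `periodHomPair N (f, g) = 0` then `f = 0` and `g = 0`. -/
theorem eq_zero_of_periodHomPair_eq_zero (f g : CuspForm (Gamma0 N) 2)
    (h : periodHomPair N (f, g) = 0) : f = 0 ∧ g = 0 := by
  -- the relation between the periods of `f + g` and `f - g`
  have hrel : ∀ γ : Gamma0 N, periodMap N (f + g) (Additive.ofMul γ)
      + periodMap N (f - g) (Additive.ofMul (jConjGamma0 N γ)) = 0 := by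
    intro γ
    have h1 := periodHomPair_apply f g γ
    rw [h, AddMonoidHom.zero_apply] at h1
    rw [periodMap_add, periodMap_sub]
    linear_combination -h1
  set A : ℍ → ℂ := Phi ⇑(f + g) with hA
  set B : ℍ → ℂ := Phi ⇑(f - g) with hB
  have hAreg : CuspReg N A := cuspReg_Phi (f + g)
  have hBreg : CuspReg N (sharp B) := (cuspReg_Phi (f - g)).sharp
  -- first function
  have hΨ₁ : CuspReg N (A + sharp B) := hAreg.add hBreg
  have hΨ₂ : CuspReg N ((-Complex.I) • (A + (-1 : ℂ) • sharp B)) :=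
    (hAreg.add (hBreg.const_smul (-1))).const_smul (-Complex.I)
  obtain ⟨c₁, hc₁⟩ := exists_eq_const_of_re_invariant (N := N) hΨ₁.holo
    (fun γ hγ z => by
      have h1 := Phi_smul_gamma0 (f + g) ⟨γ, hγ⟩ z
      have h2 := sharp_Phi_smul (f - g) ⟨γ, hγ⟩ z
      have h3 := congrArg Complex.re (hrel ⟨γ, hγ⟩)
      simp only [Pi.add_apply, hA, hB] at h1 h2 ⊢
      rw [h1, h2]
      simp only [Complex.add_re, Complex.conj_re, Complex.zero_re] at h3 ⊢
      linarith)
    hΨ₁.per hΨ₁.lim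
  obtain ⟨c₂, hc₂⟩ := exists_eq_const_of_re_invariant (N := N) hΨ₂.holo
    (fun γ hγ z => by
      have h1 := Phi_smul_gamma0 (f + g) ⟨γ, hγ⟩ z
      have h2 := sharp_Phi_smul (f - g) ⟨γ, hγ⟩ z
      have h3 := congrArg Complex.im (hrel ⟨γ, hγ⟩)
      simp only [Pi.add_apply, Pi.smul_apply, smul_eq_mul, hA, hB] at h1 h2 ⊢
      rw [h1, h2]
      simp only [Complex.add_im, Complex.zero_im] at h3
      simp only [Complex.mul_re, Complex.neg_re, Complex.neg_im, Complex.I_re, Complex.I_im,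
        Complex.add_re, Complex.add_im, Complex.conj_re, Complex.conj_im, Complex.one_re,
        Complex.one_im, Complex.mul_im]
      linarith)
    hΨ₂.per hΨ₂.lim
  -- `A` and `B` are constant
  have hAc : A = Function.const ℍ ((c₁ + Complex.I * c₂) / 2) := by
    funext z
    have e1 := congrFun hc₁ z
    have e2 := congrFun hc₂ z
    simp only [Pi.add_apply, Pi.smul_apply, smul_eq_mul, Function.const_apply] at e1 e2 ⊢
    linear_combination (1 / 2 : ℂ) * e1 + (Complex.I / 2) * e2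
      + (1 / 2 : ℂ) * (A z - sharp B z) * (Complex.I_mul_I)
  have hBc' : sharp B = Function.const ℍ ((c₁ - Complex.I * c₂) / 2) := by
    funext z
    have e1 := congrFun hc₁ z
    have e2 := congrFun hc₂ z
    simp only [Pi.add_apply, Pi.smul_apply, smul_eq_mul, Function.const_apply] at e1 e2 ⊢
    linear_combination (1 / 2 : ℂ) * e1 - (Complex.I / 2) * e2
      - (1 / 2 : ℂ) * (A z - sharp B z) * (Complex.I_mul_I)
  have hBc : B = Function.const ℍ (conj ((c₁ - Complex.I * c₂) / 2)) := by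
    rw [← sharp_sharp B, hBc']
    funext z
    simp [sharp]
  have hfg₁ : ∀ τ : ℍ, f τ + g τ = 0 := fun τ => by
    have := eq_zero_of_Phi_const (f + g) hAc τ
    simpa using this
  have hfg₂ : ∀ τ : ℍ, f τ - g τ = 0 := fun τ => by
    have := eq_zero_of_Phi_const (f - g) hBc τ
    simpa using this
  constructor
  · ext τ
    have h1 := hfg₁ τ
    have h2 := hfg₂ τ
    show f τ = 0
    linear_combination (1 / 2 : ℂ) * h1 + (1 / 2 : ℂ) * h2
  · ext τ
    have h1 := hfg₁ τ
    have h2 := hfg₂ τ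
    show g τ = 0
    linear_combination (1 / 2 : ℂ) * h1 - (1 / 2 : ℂ) * h2

/-- **Eichler–Shimura, injectivity.** -/
theorem periodHomPair_injective (N : ℕ) [NeZero N] : Function.Injective (periodHomPair N) := by
  rw [injective_iff_map_eq_zero]
  rintro ⟨f, g⟩ h
  obtain ⟨hf, hg⟩ := eq_zero_of_periodHomPair_eq_zero f g h
  rw [hf, hg]
  rfl

end Main

end Fermat.Agent.S21
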