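import Fermat.Prelude.Def_ModularCurve_PeriodHomPair
import Fermat.Agent.S22.Injective

/-!
# S21: the Eichler integral is an equivariant primitive; the period map is linear

* `hasEquivariantPrimitive` : `Φ f := bigGH 0 ⇑f` is an equivariant primitive of `f`.
* `periodMap_apply` : `periodMap N f γ = Φ f (γ • I) - Φ f I`.
* `existsPeriodMapLinear` : `ExistsPeriodMapLinear N`.
-/

set_option autoImplicit false

namespace Fermat.Agent.S21

open UpperHalfPlane Complex Filter Topology CongruenceSubgroup ModularForm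
open ModularCurve ModularCurve.Period Fermat.Agent.S22
open scoped MatrixGroups ModularForm Manifold

section Eichler

/-- The Eichler integral `∫_{i∞}^τ f(w) dw` as a function on the upper half plane. -/
noncomputable def Phi (f : ℍ → ℂ) : ℍ → ℂ := bigGH 0 f

theorem Phi_apply (f : ℍ → ℂ) (τ : ℍ) : Phi f τ = prim (f ∘ ofComplex) (τ : ℂ) := by
  show eichler 0 f ![1, -(τ : ℂ)] (τ : ℂ) = _
  unfold eichler
  congr 1
  ext w
  simp [integrand]

theorem eichler_zero_eq (f : ℍ → ℂ) (v : Fin 2 → ℂ) (z : ℂ) :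
    eichler 0 f v z = prim (f ∘ ofComplex) z := by
  unfold eichler
  congr 1
  ext w
  simp [integrand]

theorem Phi_eq_eichler (f : ℍ → ℂ) (v : Fin 2 → ℂ) (τ : ℍ) : Phi f τ = eichler 0 f v (τ : ℂ) := by
  rw [Phi_apply, eichler_zero_eq]

theorem kappa_zero_indep (k : ℤ) (f : ℍ → ℂ) (γ : SL(2, ℤ)) (v v' : Fin 2 → ℂ) :
    kappa 0 k f γ v = kappa 0 k f γ v' := by
  simp only [kappa, eichler_zero_eq]

/-- The derivative of the Eichler integral. -/
theorem hasDerivAt_Phi {f : ℍ → ℂ} (hf : Good f) (τ : ℍ) :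
    HasDerivAt (Phi f ∘ ofComplex) (f τ) (τ : ℂ) := by
  have h := hasDerivAt_bigG_zero hf τ.im_pos
  rw [ofComplex_apply] at h
  refine h.congr_of_eventuallyEq ?_
  filter_upwards [isOpen_UH.mem_nhds (show (τ : ℂ) ∈ UH from τ.im_pos)] with z hz
  show bigG 0 f ((ofComplex z : ℍ) : ℂ) = bigG 0 f z
  rw [ofComplex_apply_of_im_pos hz]

/-- Additivity of the Eichler integral. -/
theorem Phi_add {f g : ℍ → ℂ} (hf : Good f) (hg : Good g) : Phi (f + g) = Phi f + Phi g := by
  ext τ
  rw [Pi.add_apply, Phi_eq_eichler _ ![1, 0], Phi_eq_eichler f ![1, 0], Phi_eq_eichler g ![1, 0]]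
  exact eichler_add hf hg 0 _ τ.im_pos

theorem Phi_smul (c : ℂ) (f : ℍ → ℂ) : Phi (c • f) = c • Phi f := by
  ext τ
  rw [Pi.smul_apply, Phi_eq_eichler _ ![1, 0], Phi_eq_eichler f ![1, 0], smul_eq_mul]
  exact eichler_smul f c 0 _ _

/-- The Eichler integral of a uniformly exponentially decaying function tends to `0` at `i∞`. -/
theorem tendsto_Phi_zero {f : ℍ → ℂ}
    (hb : ∃ A c Y : ℝ, 0 < c ∧ ∀ τ : ℍ, Y ≤ τ.im → ‖f τ‖ ≤ A * Real.exp (-c * τ.im)) :
    Tendsto (Phi f) atImInfty (𝓝 0) := by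
  obtain ⟨A, c, Y, hc, hA⟩ := hb
  have hbound : ∀ z : ℂ, max Y 1 ≤ z.im → ‖(f ∘ ofComplex) z‖ ≤ A * Real.exp (-c * z.im) := by
    intro z hz
    have hz0 : 0 < z.im := lt_of_lt_of_le one_pos ((le_max_right _ _).trans hz)
    have h2 : (ofComplex z).im = z.im := by
      rw [← UpperHalfPlane.coe_im, ofComplex_apply_of_im_pos hz0]
    have := hA (ofComplex z) (by rw [h2]; exact (le_max_left _ _).trans hz)
    rwa [h2] at this
  have hle : ∀ τ : ℍ, max Y 1 ≤ τ.im → ‖Phi f τ‖ ≤ A / c * Real.exp (-c * τ.im) := by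
    intro τ hτ
    rw [Phi_apply]
    exact norm_prim_le (R := |(τ : ℂ).re|) hc (fun z _ hz => hbound z hz) le_rfl hτ
  have hlim : Tendsto (fun τ : ℍ => A / c * Real.exp (-c * τ.im)) atImInfty (𝓝 0) := by
    have h1 : Tendsto (fun y : ℝ => A / c * Real.exp (-c * y)) atTop (𝓝 0) := by
      have : Tendsto (fun y : ℝ => Real.exp (-c * y)) atTop (𝓝 0) := by
        have := Real.tendsto_exp_atBot.comp
          (tendsto_id.const_mul_atTop_of_neg (by linarith : -c < 0))
        simpa [Function.comp_def] using this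
      simpa using this.const_mul (A / c)
    exact h1.comp tendsto_comap
  refine squeeze_zero_norm' ?_ hlim
  have : ∀ᶠ τ : ℍ in atImInfty, max Y 1 ≤ τ.im :=
    tendsto_comap.eventually (eventually_ge_atTop (max Y 1))
  filter_upwards [this] with τ hτ
  exact hle τ hτ

/-- The transformation law of the Eichler integral (weight `2`). -/
theorem Phi_smul_eq {f : ℍ → ℂ} (hf : AllGood 2 f) (δ : SL(2, ℤ)) (τ : ℍ) :
    Phi f (δ • τ) = Phi (f ∣[(2 : ℤ)] δ) τ + kappa 0 2 f δ ![1, 0] := by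
  have h := eichler_mob (n := 0) (k := 2) (by norm_num) hf.good δ (hf δ) ![1, 0] τ.im_pos
  rw [Phi_eq_eichler f ![1, 0], coe_smul_eq_mob, h,
    Phi_eq_eichler _ (Matrix.vecMul ![1, 0] (toC δ))]

end Eichler

section Period

variable {N : ℕ} [NeZero N]

omit [NeZero N] in
theorem slash_eq_self (f : CuspForm (Gamma0 N) 2) {γ : SL(2, ℤ)} (hγ : γ ∈ Gamma0 N) :
    (⇑f : ℍ → ℂ) ∣[(2 : ℤ)] γ = ⇑f :=
  SlashInvariantFormClass.slash_action_eq f _ (Subgroup.mem_map_of_mem _ hγ)

/-- **(O1)** The Eichler integral is an equivariant primitive. -/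
theorem hasEquivariantPrimitive (f : CuspForm (Gamma0 N) 2) :
    HasEquivariantPrimitive N f (Phi ⇑f) := by
  have hf := allGood_cuspForm f
  refine ⟨fun τ => hasDerivAt_Phi hf.good τ, ?_, ?_, ?_⟩
  · have := exists_bound_slash f 1
    simp only [SlashAction.slash_one] at this
    exact tendsto_Phi_zero this
  · intro γ
    refine ⟨kappa 0 2 ⇑f γ ![1, 0], fun z => ?_⟩
    rw [Phi_smul_eq hf, slash_eq_self f γ.2]
    ring
  · intro δ
    refine ⟨kappa 0 2 ⇑f δ ![1, 0], ?_⟩
    have h1 : Tendsto (Phi (⇑f ∣[(2 : ℤ)] δ)) atImInfty (𝓝 0) :=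
      tendsto_Phi_zero (exists_bound_slash f δ)
    have h2 := h1.add_const (kappa 0 2 ⇑f δ ![1, 0])
    rw [zero_add] at h2
    refine h2.congr fun w => ?_
    exact (Phi_smul_eq hf δ w).symm

/-- Uniqueness of the equivariant primitive. -/
theorem eq_Phi_of_hasEquivariantPrimitive (f : CuspForm (Gamma0 N) 2) {F : ℍ → ℂ}
    (hF : HasEquivariantPrimitive N f F) : F = Phi ⇑f := by
  have hΦ := hasEquivariantPrimitive f
  set D : ℂ → ℂ := fun z => (F ∘ ofComplex) z - (Phi ⇑f ∘ ofComplex) z with hD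
  have hderiv : ∀ z ∈ UH, HasDerivAt D 0 z := by
    intro z hz
    have h1 := hF.1 ⟨z, hz⟩
    have h2 := hΦ.1 ⟨z, hz⟩
    have := h1.sub h2
    rwa [sub_self] at this
  have hdiff : DifferentiableOn ℂ D UH := fun z hz =>
    (hderiv z hz).differentiableAt.differentiableWithinAt
  have hconst : ∀ τ : ℍ, F τ - Phi ⇑f τ = D Complex.I := by
    intro τ
    have := isOpen_UH.is_const_of_deriv_eq_zero isPreconnected_UH hdiff
      (fun z hz => (hderiv z hz).deriv) (show (τ : ℂ) ∈ UH from τ.im_pos) I_mem_UH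
    rw [← this]
    simp [hD]
  have htend : Tendsto (fun τ : ℍ => F τ - Phi ⇑f τ) atImInfty (𝓝 (0 - 0)) :=
    hF.2.1.sub hΦ.2.1
  rw [sub_zero] at htend
  have hc : D Complex.I = 0 := by
    have h1 : Tendsto (fun _ : ℍ => D Complex.I) atImInfty (𝓝 0) :=
      htend.congr fun τ => hconst τ
    exact tendsto_nhds_unique tendsto_const_nhds h1
  ext τ
  have := hconst τ
  rw [hc, sub_eq_zero] at this
  exact this

/-- **(O2)** The period map is given by the Eichler integral. -/
theorem periodMap_apply (f : CuspForm (Gamma0 N) 2) (γ : Gamma0 N) :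
    periodMap N f (Additive.ofMul γ) =
      Phi ⇑f ((γ : SL(2, ℤ)) • UpperHalfPlane.I) - Phi ⇑f UpperHalfPlane.I := by
  obtain ⟨F₀, h₀, hP⟩ := periodMap_def N f (hasEquivariantPrimitive f)
  rw [hP]
  have := eq_Phi_of_hasEquivariantPrimitive f h₀
  subst this
  rfl

/-- The period map as the cocycle `kappa`. -/
theorem periodMap_apply_eq_kappa (f : CuspForm (Gamma0 N) 2) (γ : Gamma0 N) (v : Fin 2 → ℂ) :
    periodMap N f (Additive.ofMul γ) = kappa 0 2 ⇑f (γ : SL(2, ℤ)) v := by
  rw [periodMap_apply, Phi_smul_eq (allGood_cuspForm f), slash_eq_self f γ.2,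
    kappa_zero_indep 2 _ _ v ![1, 0]]
  ring

/-- The period map at an arbitrary base point. -/
theorem periodMap_apply' (f : CuspForm (Gamma0 N) 2) (γ : Gamma0 N) (z : ℍ) :
    periodMap N f (Additive.ofMul γ) = Phi ⇑f ((γ : SL(2, ℤ)) • z) - Phi ⇑f z := by
  rw [periodMap_apply_eq_kappa f γ ![1, 0], Phi_smul_eq (allGood_cuspForm f),
    slash_eq_self f γ.2]
  ring

/-- The period map as a linear map. -/
noncomputable def periodLin (N : ℕ) [NeZero N] :
    CuspForm (Gamma0 N) 2 →ₗ[ℂ] (Additive (Gamma0 N) →+ ℂ) where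
  toFun := periodMap N
  map_add' f g := by
    refine AddMonoidHom.ext fun γ => ?_
    obtain ⟨γ, rfl⟩ : ∃ γ' : Gamma0 N, Additive.ofMul γ' = γ := ⟨Additive.toMul γ, rfl⟩
    rw [AddMonoidHom.add_apply, periodMap_apply, periodMap_apply, periodMap_apply,
      FunLike.coe_add, Phi_add (allGood_cuspForm f).good (allGood_cuspForm g).good]
    simp only [Pi.add_apply]
    ring
  map_smul' c f := by
    refine AddMonoidHom.ext fun γ => ?_
    obtain ⟨γ, rfl⟩ : ∃ γ' : Gamma0 N, Additive.ofMul γ' = γ := ⟨Additive.toMul γ, rfl⟩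
    rw [RingHom.id_apply, AddMonoidHom.smul_apply, periodMap_apply, periodMap_apply,
      FunLike.coe_smul, Phi_smul]
    simp only [Pi.smul_apply, smul_eq_mul]
    ring

@[simp] theorem periodLin_apply (f : CuspForm (Gamma0 N) 2) : periodLin N f = periodMap N f := rfl

/-- **(O2)** The period map is linear. -/
theorem existsPeriodMapLinear (N : ℕ) [NeZero N] : ExistsPeriodMapLinear N :=
  ⟨periodLin N, fun _ => rfl⟩

/-- Explicit formula for `periodHomPair`. -/
theorem periodHomPair_apply (f g : CuspForm (Gamma0 N) 2) (γ : Gamma0 N) :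
    periodHomPair N (f, g) (Additive.ofMul γ) =
      (periodMap N f (Additive.ofMul γ) + periodMap N f (Additive.ofMul (jConjGamma0 N γ))) +
      (periodMap N g (Additive.ofMul γ) - periodMap N g (Additive.ofMul (jConjGamma0 N γ))) := by
  obtain ⟨pml, hpml, hP⟩ := periodHomPair_def N (existsPeriodMapLinear N)
  rw [hP]
  simp only [LinearMap.coprod_apply, LinearMap.comp_apply, LinearMap.add_apply,
    LinearMap.sub_apply, LinearMap.id_apply, AddMonoidHom.add_apply, AddMonoidHom.sub_apply,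
    hpml, charInvolution_apply, toMul_ofMul]

end Period

end Fermat.Agent.S21
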